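import Fermat.Agent.EFrob.Galois
import Fermat.Agent.FrobDensity.Density
import Fermat.Agent.LG.InertField

set_option autoImplicit false

/-!
# The determinant of the mod `p` representation of an elliptic curve is the cyclotomic character
-/

noncomputable section

namespace Fermat.Agent.EFrob

open WeierstrassCurve WeierstrassCurve.Affine
open WeierstrassCurve.Affine.Point (galoisRepModuleEnd)
open Fermat.Agent.EC

local notation "Kb" => AlgebraicClosure ℚ
local notation "GQ" => (AlgebraicClosure ℚ ≃ₐ[ℚ] AlgebraicClosure ℚ)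

/-- A Frobenius element raises roots of unity of order prime to `ℓ` to the power `ℓ`. -/
lemma frobenius_root {A : ValuationSubring Kb} {ℓ : ℕ} (hl : ℓ.Prime) (hA : A.LiesOverPrime ℓ)
    {σ : GQ} (hσ : A.IsFrobeniusAt σ ℓ) {m : ℕ} (hm : ¬ ℓ ∣ m) {ζ : Kb} (hζ : ζ ^ m = 1) :
    σ ζ = ζ ^ ℓ := by
  have hm0 : m ≠ 0 := by rintro rfl; simp at hm
  have hζA : ζ ∈ A := by
    rw [← A.valuation_le_one_iff]
    have := congrArg A.valuation hζ
    rw [map_pow, map_one] at this
    exact ((LG.pow_eq_one_iff_of_ne_zero' hm0).mp this).le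
  refine LG.root_eq_of_congr hl hA hm (by rw [← map_pow, hζ, map_one])
    (by rw [← pow_mul, mul_comm, pow_mul, hζ, one_pow]) ?_
  exact FrobDensity.isFrobeniusAt_sub_mem hσ hζA

/-- Coordinates of a point. -/
def coordP {E : WeierstrassCurve Kb} : E.toAffine.Point → Kb × Kb
  | .zero => (0, 0)
  | .some x y _ => (x, y)

lemma map_eq_of_coord {E : WeierstrassCurve ℚ} {σ τ : GQ} {P : (E⁄Kb).Point}
    (h1 : σ (coordP P).1 = τ (coordP P).1) (h2 : σ (coordP P).2 = τ (coordP P).2) :
    Point.map (W' := E) σ.toAlgHom P = Point.map (W' := E) τ.toAlgHom P := by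
  rcases P with _ | ⟨x, y, hn⟩
  · rfl
  · have e1 : σ x = τ x := h1
    have e2 : σ y = τ y := h2
    rw [Point.map_some, Point.map_some, Point.some.injEq]
    exact ⟨e1, e2⟩

/-- The Galois action on the `p`-torsion and on a given finite set factors through a finite
extension. -/
lemma exists_level (E : WeierstrassCurve ℚ) [E.IsElliptic] {p : ℕ} (hp : p.Prime)
    (S : Finset Kb) :
    ∃ L : IntermediateField ℚ Kb, FiniteDimensional ℚ L ∧ (∀ x ∈ S, x ∈ L) ∧
      ∀ σ τ : GQ, (∀ x ∈ L, σ x = τ x) → ∀ x : TorsP E p, σ • x = τ • x := by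
  classical
  have hfin := finite_torsion' (E := E) hp
  have := Fintype.ofFinite (TorsP E p)
  let T : Finset Kb := S ∪ (Finset.univ.image fun x : TorsP E p => (coordP (x : (E⁄Kb).Point)).1) ∪
    (Finset.univ.image fun x : TorsP E p => (coordP (x : (E⁄Kb).Point)).2)
  refine ⟨IntermediateField.adjoin ℚ (T : Set Kb), ?_, ?_, ?_⟩
  · exact IntermediateField.finiteDimensional_adjoin fun x _ =>
      (FrobDensity.isAlgebraic_Qbar.isAlgebraic x).isIntegral
  · intro x hx
    apply IntermediateField.subset_adjoin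
    simp only [T, Finset.coe_union, Set.mem_union, Finset.mem_coe]
    exact Or.inl (Or.inl hx)
  · intro σ τ h x
    apply Subtype.ext
    rw [coe_smul_torsion, coe_smul_torsion]
    apply map_eq_of_coord
    · apply h
      apply IntermediateField.subset_adjoin
      simp only [T, Finset.coe_union, Set.mem_union, Finset.mem_coe, Finset.mem_image]
      exact Or.inl (Or.inr ⟨x, Finset.mem_univ _, rfl⟩)
    · apply h
      apply IntermediateField.subset_adjoin
      simp only [T, Finset.coe_union, Set.mem_union, Finset.mem_coe, Finset.mem_image]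
      exact Or.inr ⟨x, Finset.mem_univ _, rfl⟩

/-- **The determinant of `E[p]` is the mod `p` cyclotomic character.** -/
theorem det_eq_cyclotomic (W : WeierstrassCurve ℤ) (hΔ : W.Δ ≠ 0) {p : ℕ} [hp : Fact p.Prime]
    (σ : GQ) {ζ : Kb} (hζ : ζ ^ p = 1) :
    σ ζ = ζ ^ (LinearMap.det
      (galoisRepModuleEnd ℚ (W.map (Int.castRingHom ℚ)).toAffine p σ)).val := by
  classical
  have hell' : (W.map (Int.castRingHom ℚ)).IsElliptic := by
    constructor
    rw [WeierstrassCurve.map_Δ, isUnit_iff_ne_zero]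
    intro h
    apply hΔ
    rw [eq_intCast, Int.cast_eq_zero] at h
    exact h
  obtain ⟨L, hL, hLζ, hLσ⟩ := exists_level (W.map (Int.castRingHom ℚ)) hp.out {ζ}
  obtain ⟨l, hl, hlT, A, hA, φ, hφ, i, j, hi, -⟩ :=
    FrobDensity.exists_frobenius_pow L σ (insert p W.Δ.natAbs.primeFactors)
  rw [Finset.mem_insert, not_or] at hlT
  have hgood : W.IsGoodPrimeFor l := by
    intro h
    exact hlT.2 (Nat.mem_primeFactors.mpr ⟨hl, Int.natCast_dvd.mp h, Int.natAbs_ne_zero.mpr hΔ⟩)
  have hlf : Fact l.Prime := ⟨hl⟩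
  have h1 : galoisRepModuleEnd ℚ (W.map (Int.castRingHom ℚ)).toAffine p σ =
      (galoisRepModuleEnd ℚ (W.map (Int.castRingHom ℚ)).toAffine p φ) ^ i := by
    rw [← map_pow]
    refine LinearMap.ext fun x => ?_
    exact (hLσ (φ ^ i) σ hi x).symm
  have h2 := (trace_det_frobenius (p := p) hgood (fun h => hlT.1 h.symm) hA hφ).2
  rw [h1, map_pow, h2]
  have hpl : ¬ l ∣ p := fun h => hlT.1 ((Nat.prime_dvd_prime_iff_eq hl hp.out).mp h)
  have h3 : ∀ n : ℕ, (φ ^ n) ζ = ζ ^ (l ^ n) := by
    intro n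
    induction n with
    | zero => simp
    | succ n ih =>
      rw [pow_succ']
      change φ ((φ ^ n) ζ) = _
      rw [ih, map_pow, frobenius_root hl hA hφ hpl hζ, ← pow_mul, pow_succ', mul_comm]
  rw [← hi ζ (hLζ ζ (Finset.mem_singleton_self ζ)), h3]
  have h4 : ((l : ZMod p) ^ i).val = l ^ i % p := by
    rw [← Nat.cast_pow, ZMod.val_natCast]
  rw [h4]
  conv_lhs => rw [← Nat.div_add_mod (l ^ i) p, pow_add, pow_mul, hζ, one_pow, one_mul]

end Fermat.Agent.EFrob
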