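import Fermat.Agent.EFrob.Place

set_option autoImplicit false

/-!
# The function field of an elliptic curve: the data used for the degree computation
-/

namespace Fermat.Agent.EFrob

open WeierstrassCurve WeierstrassCurve.Affine Polynomial
open scoped Polynomial Polynomial.Bivariate

lemma exists_place {B K : Type*} [CommRing B] [Field K] (f : B →+* K)
    (hf : Function.Injective f) (I : Ideal B) (hI : I ≠ ⊤) :
    ∃ V : ValuationSubring K, (∀ b, f b ∈ V) ∧ ∀ b ∈ I, V.valuation (f b) < 1 := by
  let e : B ≃+* f.range := RingEquiv.ofBijective f.rangeRestrict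
    ⟨fun a b h => hf (by simpa using congrArg Subtype.val h), f.rangeRestrict_surjective⟩
  have hJ : I.map (e : B →+* f.range) ≠ ⊤ := by
    intro h
    apply hI
    have h1 : (1 : f.range) ∈ I.map (e : B →+* f.range) := by rw [h]; trivial
    rw [Ideal.mem_map_iff_of_surjective (e : B →+* f.range) e.surjective] at h1
    obtain ⟨b, hb, hb1⟩ := h1
    have : b = 1 := e.injective (by rw [map_one]; exact hb1)
    rw [Ideal.eq_top_iff_one, ← this]
    exact hb
  obtain ⟨V, hV1, hV2⟩ := Ideal.image_subset_nonunits_valuationSubring _ hJ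
  refine ⟨V, fun b => hV1 ⟨b, rfl⟩, fun b hb => ?_⟩
  rw [← ValuationSubring.mem_nonunits_iff]
  exact hV2 ⟨e b, Ideal.mem_map_of_mem _ hb, rfl⟩

/-- The data of the function field of an elliptic curve that we shall use. -/
structure FFData (k K : Type*) [Field k] [Field K] [Algebra k K] (W : WeierstrassCurve k)
    (x y : K) (τ : K →ₐ[k] K) : Prop where
  eqn : (W.map (algebraMap k K)).toAffine.Equation x y
  inj : ∀ f : k[X], aeval x f = 0 → f = 0
  τx : τ x = x
  τy : τ y = -y - algebraMap k K W.a₁ * x - algebraMap k K W.a₃
  fix : ∀ z, τ z = z → ∃ f g : k[X], g ≠ 0 ∧ z * aeval x g = aeval x f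
  place : ∀ a b : k, W.toAffine.Equation a b → ∃ V : ValuationSubring K,
    (∀ c : k, algebraMap k K c ∈ V) ∧ V.valuation (x - algebraMap k K a) < 1 ∧
      V.valuation (y - algebraMap k K b) < 1
  inf : ∃ V : ValuationSubring K, (∀ c : k, algebraMap k K c ∈ V) ∧ 1 < V.valuation x

section construct

variable {k : Type*} [Field k] (W : WeierstrassCurve k)

/-- the generic `x`. -/
noncomputable def gx : W.toAffine.FunctionField :=
  algebraMap W.toAffine.CoordinateRing _ (CoordinateRing.mk W.toAffine (C X))

/-- the generic `y`. -/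
noncomputable def gy : W.toAffine.FunctionField :=
  algebraMap W.toAffine.CoordinateRing _ (CoordinateRing.mk W.toAffine Y)

lemma conjC_aux : (W.toAffine.polynomial).eval₂
    ((IsScalarTower.toAlgHom k k[X] W.toAffine.CoordinateRing).toRingHom)
    (CoordinateRing.mk W.toAffine W.toAffine.negPolynomial) = 0 := by
  have h1 : (W.toAffine.polynomial).eval₂
      ((IsScalarTower.toAlgHom k k[X] W.toAffine.CoordinateRing).toRingHom)
      (CoordinateRing.mk W.toAffine W.toAffine.negPolynomial) =
      CoordinateRing.mk W.toAffine W.toAffine.polynomial := by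
    have hC : ∀ f : k[X], (IsScalarTower.toAlgHom k k[X] W.toAffine.CoordinateRing).toRingHom f =
      CoordinateRing.mk W.toAffine (C f) := fun f => rfl
    simp only [Affine.polynomial, eval₂_add, eval₂_sub, eval₂_mul, eval₂_pow, eval₂_X,
      eval₂_C, hC, Affine.negPolynomial, map_add, map_sub, map_mul, map_pow,
      map_neg]
    ring
  have h2 := AdjoinRoot.mk_self (f := W.toAffine.polynomial)
  exact h1.trans h2

/-- The conjugation on the coordinate ring. -/
noncomputable def conjC : W.toAffine.CoordinateRing →ₐ[k] W.toAffine.CoordinateRing :=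
  AdjoinRoot.liftAlgHom (S := k) W.toAffine.polynomial
    (IsScalarTower.toAlgHom k k[X] W.toAffine.CoordinateRing)
    (CoordinateRing.mk W.toAffine W.toAffine.negPolynomial) (conjC_aux W)

lemma conjC_C (f : k[X]) : conjC W (CoordinateRing.mk W.toAffine (C f)) =
    CoordinateRing.mk W.toAffine (C f) :=
  AdjoinRoot.lift_of (conjC_aux W)

lemma conjC_Y : conjC W (CoordinateRing.mk W.toAffine Y) =
    CoordinateRing.mk W.toAffine W.toAffine.negPolynomial :=
  AdjoinRoot.lift_root (conjC_aux W)

lemma conjC_basis (p q : k[X]) :
    conjC W (p • (1 : W.toAffine.CoordinateRing) + q • CoordinateRing.mk W.toAffine Y) =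
      (p - q * (C W.a₁ * X + C W.a₃)) • (1 : W.toAffine.CoordinateRing) +
        (-q) • CoordinateRing.mk W.toAffine Y := by
  simp only [CoordinateRing.smul, map_add, map_mul, conjC_C, conjC_Y, map_one,
    Affine.negPolynomial, map_sub, map_neg]
  ring

lemma conjC_conjC (z : W.toAffine.CoordinateRing) : conjC W (conjC W z) = z := by
  obtain ⟨p, q, rfl⟩ := CoordinateRing.exists_smul_basis_eq z
  rw [conjC_basis, conjC_basis]
  congr 2 <;> ring

lemma conjC_injective : Function.Injective (conjC W) := by
  intro a b h
  rw [← conjC_conjC W a, h, conjC_conjC]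

lemma conjC_fixed [hE : W.IsElliptic] {z : W.toAffine.CoordinateRing} (h : conjC W z = z) :
    ∃ p : k[X], z = CoordinateRing.mk W.toAffine (C p) := by
  obtain ⟨p, q, rfl⟩ := CoordinateRing.exists_smul_basis_eq z
  rw [conjC_basis, ← sub_eq_zero] at h
  have h1 : (-(q * (C W.a₁ * X + C W.a₃))) • (1 : W.toAffine.CoordinateRing) +
      (-(2 * q)) • CoordinateRing.mk W.toAffine Y = 0 := by
    rw [← h]
    simp only [CoordinateRing.smul, map_sub, map_mul, map_neg, map_add]
    have : (CoordinateRing.mk W.toAffine (C (2 : k[X]))) = 2 := by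
      rw [show (2 : k[X]) = 1 + 1 by norm_num, C_add, C_1, map_add, map_one]
      norm_num
    rw [this]
    ring
  obtain ⟨h2, h3⟩ := CoordinateRing.smul_basis_eq_zero h1
  have hq : q = 0 := by
    by_contra hq
    have h4 : (2 : k[X]) = 0 := by
      rcases mul_eq_zero.mp (neg_eq_zero.mp h3) with h | h
      · exact h
      · exact absurd h hq
    have h5 : C W.a₁ * X + C W.a₃ = (0 : k[X]) := by
      rcases mul_eq_zero.mp (neg_eq_zero.mp h2) with h | h
      · exact absurd h hq
      · exact h
    have h6 : (2 : k) = 0 := by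
      have := congrArg (fun f : k[X] => f.coeff 0) h4
      simpa [Polynomial.coeff_ofNat_zero] using this
    have h7 : W.a₁ = 0 := by
      have := congrArg (fun f : k[X] => f.coeff 1) h5
      simpa using this
    have h8 : W.a₃ = 0 := by
      have := congrArg (fun f : k[X] => f.coeff 0) h5
      simpa using this
    have h9 : W.Δ = 0 := by
      simp only [WeierstrassCurve.Δ, WeierstrassCurve.b₂, WeierstrassCurve.b₄,
        WeierstrassCurve.b₆, WeierstrassCurve.b₈, h7, h8]
      linear_combination (-8 * W.a₂ ^ 2 * (4 * W.a₂ * W.a₆ - W.a₄ ^ 2) - 32 * W.a₄ ^ 3 -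
        216 * W.a₆ ^ 2 + 144 * W.a₂ * W.a₄ * W.a₆) * h6
    exact hE.isUnit.ne_zero h9
  subst hq
  refine ⟨p, ?_⟩
  simp [CoordinateRing.smul]

lemma conjK_aux : Function.Injective
    ((IsScalarTower.toAlgHom k W.toAffine.CoordinateRing W.toAffine.FunctionField).comp
      (conjC W)) := by
  intro a b h
  exact conjC_injective W
    (IsFractionRing.injective W.toAffine.CoordinateRing W.toAffine.FunctionField h)

/-- The conjugation on the function field. -/
noncomputable def conjK : W.toAffine.FunctionField →ₐ[k] W.toAffine.FunctionField :=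
  IsFractionRing.liftAlgHom (A := W.toAffine.CoordinateRing) (conjK_aux W)

lemma conjK_algebraMap (z : W.toAffine.CoordinateRing) :
    conjK W (algebraMap _ _ z) = algebraMap _ _ (conjC W z) := by
  rw [conjK, IsFractionRing.liftAlgHom_apply]
  exact IsFractionRing.lift_algebraMap (conjK_aux W) _

theorem ffData [hE : W.IsElliptic] : FFData k W.toAffine.FunctionField W (gx W) (gy W) (conjK W) := by
  have hinj := IsFractionRing.injective W.toAffine.CoordinateRing W.toAffine.FunctionField
  have hmk : ∀ c : k, algebraMap k W.toAffine.FunctionField c =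
      algebraMap W.toAffine.CoordinateRing _ (CoordinateRing.mk W.toAffine (C (C c))) := by
    intro c
    rw [IsScalarTower.algebraMap_apply k W.toAffine.CoordinateRing W.toAffine.FunctionField]
    rfl
  have hae : ∀ f : k[X], aeval (gx W) f =
      algebraMap W.toAffine.CoordinateRing _ (CoordinateRing.mk W.toAffine (C f)) := by
    intro f
    induction f using Polynomial.induction_on' with
    | add p q hp hq => simp only [map_add, hp, hq]
    | monomial n a =>
      rw [← C_mul_X_pow_eq_monomial, map_mul, map_pow, aeval_X, aeval_C, hmk, gx]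
      simp only [map_mul, map_pow]
  have heq : (W.map (algebraMap k W.toAffine.FunctionField)).toAffine.Equation (gx W) (gy W) := by
    have h2 : CoordinateRing.mk W.toAffine W.toAffine.polynomial = 0 := AdjoinRoot.mk_self
    have h3 := congrArg (algebraMap W.toAffine.CoordinateRing W.toAffine.FunctionField) h2
    rw [map_zero] at h3
    simp only [Affine.polynomial, map_add, map_sub, map_mul, map_pow] at h3
    rw [equation_iff]
    simp only [map_a₁, map_a₂, map_a₃, map_a₄, map_a₆, hmk]
    simp only [gx, gy]
    linear_combination h3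
  refine ⟨heq, ?_, ?_, ?_, ?_, ?_, ?_⟩
  · intro f hf
    rw [hae] at hf
    have h1 := (map_eq_zero_iff _ hinj).mp hf
    have h2 : f • (1 : W.toAffine.CoordinateRing) + (0 : k[X]) • CoordinateRing.mk W.toAffine Y = 0 := by
      rw [zero_smul, add_zero, CoordinateRing.smul, mul_one, h1]
    exact (CoordinateRing.smul_basis_eq_zero h2).1
  · rw [gx, conjK_algebraMap, conjC_C]
  · rw [gy, conjK_algebraMap, conjC_Y, hmk, hmk, gx]
    simp only [Affine.negPolynomial, map_add, map_sub, map_mul, map_neg]
    ring
  · intro z hz
    obtain ⟨u, v, hv, rfl⟩ := IsFractionRing.div_surjective (A := W.toAffine.CoordinateRing) z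
    have hv0 : v ≠ 0 := nonZeroDivisors.ne_zero hv
    have hcv : conjC W v ≠ 0 := by
      intro h0
      apply hv0
      apply conjC_injective W
      rw [h0, map_zero]
    have hN : conjC W (v * conjC W v) = v * conjC W v := by
      rw [map_mul, conjC_conjC, mul_comm]
    obtain ⟨g, hg⟩ := conjC_fixed W hN
    have hvK : algebraMap W.toAffine.CoordinateRing W.toAffine.FunctionField v ≠ 0 :=
      (map_ne_zero_iff _ hinj).mpr hv0
    have hzN : algebraMap W.toAffine.CoordinateRing W.toAffine.FunctionField u /
        algebraMap W.toAffine.CoordinateRing W.toAffine.FunctionField v *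
        algebraMap W.toAffine.CoordinateRing W.toAffine.FunctionField (v * conjC W v) =
        algebraMap W.toAffine.CoordinateRing W.toAffine.FunctionField (u * conjC W v) := by
      rw [map_mul, map_mul]
      field_simp
    have hfix : conjC W (u * conjC W v) = u * conjC W v := by
      apply hinj
      rw [← conjK_algebraMap, ← hzN, map_mul, hz, conjK_algebraMap, hN]
    obtain ⟨f, hf⟩ := conjC_fixed W hfix
    refine ⟨f, g, ?_, ?_⟩
    · rintro rfl
      rw [C_0, map_zero] at hg
      rcases mul_eq_zero.mp hg with h | h
      · exact hv0 h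
      · exact hcv h
    · rw [hae, hae, ← hf, ← hg]
      exact hzN
  · intro a b hab
    have hI : CoordinateRing.XYIdeal W.toAffine a (C b) ≠ ⊤ := by
      intro htop
      have e := CoordinateRing.quotientXYIdealEquiv (W' := W.toAffine) (x := a) (y := C b) hab
      rw [htop] at e
      have h1 : (1 : k) = 0 := by
        rw [← map_one e, ← map_zero e]
        exact congrArg e (Ideal.Quotient.eq.mpr (by trivial))
      exact one_ne_zero h1
    obtain ⟨V, hV1, hV2⟩ := exists_place
      (algebraMap W.toAffine.CoordinateRing W.toAffine.FunctionField) hinj _ hI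
    refine ⟨V, fun c => by rw [hmk]; exact hV1 _, ?_, ?_⟩
    · have := hV2 (CoordinateRing.XClass W.toAffine a)
        (Ideal.subset_span (Set.mem_insert _ _))
      rw [CoordinateRing.XClass] at this
      convert this using 2
      rw [gx, hmk, ← map_sub, ← map_sub, ← C_sub]
    · have := hV2 (CoordinateRing.YClass W.toAffine (C b))
        (Ideal.subset_span (Set.mem_insert_of_mem _ rfl))
      rw [CoordinateRing.YClass] at this
      convert this using 2
      rw [gy, hmk, ← map_sub, ← map_sub]
  · -- the place at infinity
    have hx0 : gx W ≠ 0 := by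
      intro h0
      have h1 : aeval (gx W) (X : k[X]) = 0 := by rw [aeval_X, h0]
      rw [hae] at h1
      have h2 := (map_eq_zero_iff _ hinj).mp h1
      have h3 : (X : k[X]) • (1 : W.toAffine.CoordinateRing) +
          (0 : k[X]) • CoordinateRing.mk W.toAffine Y = 0 := by
        rw [zero_smul, add_zero, CoordinateRing.smul, mul_one, h2]
      exact X_ne_zero (CoordinateRing.smul_basis_eq_zero h3).1
    have hinj2 : Function.Injective (aeval (R := k) (gx W)⁻¹ : k[X] →ₐ[k] W.toAffine.FunctionField) := by
      rw [injective_iff_map_eq_zero]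
      intro f hf
      let _ := invertibleOfNonzero hx0
      have h1 : aeval (gx W) f.reverse = 0 := by
        have h2 := eval₂_reverse_eq_zero_iff (algebraMap k W.toAffine.FunctionField) (⅟(gx W)) f
        rw [invOf_invOf, invOf_eq_inv] at h2
        exact h2.mpr hf
      have h4 : f.reverse = 0 := by
        rw [hae] at h1
        have h2 := (map_eq_zero_iff _ hinj).mp h1
        have h3 : f.reverse • (1 : W.toAffine.CoordinateRing) +
            (0 : k[X]) • CoordinateRing.mk W.toAffine Y = 0 := by
          rw [zero_smul, add_zero, CoordinateRing.smul, mul_one, h2]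
        exact (CoordinateRing.smul_basis_eq_zero h3).1
      exact reverse_eq_zero.mp h4
    have hI : Ideal.span {(X : k[X])} ≠ ⊤ := by
      rw [Ne, Ideal.span_singleton_eq_top]
      exact not_isUnit_X
    obtain ⟨V, hV1, hV2⟩ := exists_place
      (aeval (R := k) (gx W)⁻¹ : k[X] →ₐ[k] W.toAffine.FunctionField).toRingHom hinj2 _ hI
    refine ⟨V, fun c => ?_, ?_⟩
    · have := hV1 (C c)
      simpa using this
    · have := hV2 X (Ideal.subset_span rfl)
      simp only [AlgHom.toRingHom_eq_coe, RingHom.coe_coe, aeval_X, map_inv₀] at this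
      have h0 : V.valuation (gx W) ≠ 0 := (Valuation.ne_zero_iff _).mpr hx0
      exact (inv_lt_one₀ (zero_lt_iff.mpr h0)).mp this

end construct

end Fermat.Agent.EFrob
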