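import Fermat.Agent.EFrob.TraceDet
import Fermat.Agent.EC.Reducible
import Fermat.Prelude.Def_EllipticCurve_FrobeniusTrace
import Fermat.Prelude.Def_FLTPrelim_Modularity

set_option autoImplicit false

/-!
# The characteristic polynomial of Frobenius on the `p`-torsion of an elliptic curve over `ℚ`
-/

noncomputable section

namespace Fermat.Agent.EFrob

open WeierstrassCurve WeierstrassCurve.Affine Polynomial
open Fermat.Agent.EC
open FFData (aℓ)

section points

variable {k : Type*} [Field k] [IsAlgClosed k] [DecidableEq k] {ℓ : ℕ} [hℓ : Fact ℓ.Prime]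
  [CharP k ℓ]

omit hℓ [IsAlgClosed k] [DecidableEq k] in
lemma hk_int [hℓ : Fact ℓ.Prime] (W : WeierstrassCurve ℤ) :
    (W.map (Int.castRingHom k)).map (frobenius k ℓ) = W.map (Int.castRingHom k) := by
  rw [WeierstrassCurve.map_map]
  congr 1
  exact Subsingleton.elim _ _

omit hℓ [IsAlgClosed k] [DecidableEq k] in
lemma map_reductionMod (W : WeierstrassCurve ℤ) :
    (W.reductionMod ℓ).map (ZMod.castHom (dvd_refl ℓ) k) = W.map (Int.castRingHom k) := by
  rw [reductionMod, WeierstrassCurve.map_map]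
  congr 1
  exact Subsingleton.elim _ _

omit hℓ [IsAlgClosed k] [DecidableEq k] in
lemma isElliptic_int {W : WeierstrassCurve ℤ} (hW : W.IsGoodPrimeFor ℓ) :
    (W.map (Int.castRingHom k)).IsElliptic := by
  constructor
  rw [WeierstrassCurve.map_Δ, isUnit_iff_ne_zero]
  intro h
  apply hW
  rw [eq_intCast, CharP.intCast_eq_zero_iff k ℓ] at h
  exact h

omit [IsAlgClosed k] [DecidableEq k] in
lemma exists_zmod_of_pow_eq {x : k} (hx : x ^ ℓ = x) :
    ∃ a : ZMod ℓ, ZMod.castHom (dvd_refl ℓ) k a = x := by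
  have h1 := (Subfield.mem_bot_iff_pow_eq_self k ℓ).mpr hx
  rw [← ZMod.fieldRange_castHom_eq_bot ℓ] at h1
  exact h1

/-- The fixed points of Frobenius are the points over `𝔽_ℓ`. -/
theorem card_frob_fixed (W : WeierstrassCurve ℤ) :
    Nat.card {T : (W.map (Int.castRingHom k)).toAffine.Point //
      frobP ℓ (hk_int W) T - T = 0} = (W.reductionMod ℓ).card := by
  symm
  rw [WeierstrassCurve.card]
  have h0 := map_reductionMod (k := k) (ℓ := ℓ) W
  refine Nat.card_congr (Equiv.ofBijective (fun P => ⟨pmap (ZMod.castHom (dvd_refl ℓ) k) h0 P, ?_⟩)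
    ⟨fun P Q h => ?_, ?_⟩)
  · rw [sub_eq_zero]
    rcases P with _ | ⟨x, y, hn⟩
    · change frobP ℓ (hk_int W) (pmap _ h0 0) = pmap _ h0 0
      rw [map_zero, map_zero]
    · rw [pmap_some]
      obtain ⟨h1, h2⟩ := frobP_some ℓ (hk_int (k := k) W) (pnonsing h0 hn)
      rw [h2, Point.some.injEq, ← map_pow, ← map_pow, ZMod.pow_card, ZMod.pow_card]
      exact ⟨rfl, rfl⟩
  · exact pmap_injective _ h0 (congrArg Subtype.val h)
  · rintro ⟨T, hT⟩
    rw [sub_eq_zero] at hT
    rcases T with _ | ⟨x, y, hn⟩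
    · refine ⟨0, Subtype.ext ?_⟩
      change pmap _ h0 0 = 0
      rw [map_zero]
    · obtain ⟨h1, h2⟩ := frobP_some ℓ (hk_int (k := k) W) hn
      rw [h2, Point.some.injEq] at hT
      obtain ⟨a, ha⟩ := exists_zmod_of_pow_eq hT.1
      obtain ⟨b, hb⟩ := exists_zmod_of_pow_eq hT.2
      have hab : (W.reductionMod ℓ).toAffine.Nonsingular a b := by
        rw [← (W.reductionMod ℓ).toAffine.map_nonsingular
          (ZMod.castHom (dvd_refl ℓ) k).injective a b, ha, hb]
        change ((W.reductionMod ℓ).map (ZMod.castHom (dvd_refl ℓ) k)).toAffine.Nonsingular x y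
        rw [h0]
        exact hn
      refine ⟨.some a b hab, Subtype.ext ?_⟩
      change pmap _ h0 _ = _
      rw [pmap_some, Point.some.injEq]
      exact ⟨ha, hb⟩

theorem aℓ_eq_apOfModel (W : WeierstrassCurve ℤ) :
    aℓ (hk_int (k := k) (ℓ := ℓ) W) = W.apOfModel ℓ := by
  rw [aℓ, card_frob_fixed, apOfModel, traceOfFrobenius, Nat.card_zmod]

end points

section char0

local notation "Kb" => AlgebraicClosure ℚ
local notation "GQ" => (AlgebraicClosure ℚ ≃ₐ[ℚ] AlgebraicClosure ℚ)

variable {A : ValuationSubring Kb} {ℓ : ℕ} [hℓ : Fact ℓ.Prime]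

/-- An algebraic closure of the residue field. -/
abbrev ResB (A : ValuationSubring Kb) : Type := AlgebraicClosure (IsLocalRing.ResidueField A)

instance decEqResB (A : ValuationSubring Kb) : DecidableEq (ResB A) := Classical.decEq _

/-- The reduction map. -/
def redB (A : ValuationSubring Kb) : A →+* ResB A :=
  (algebraMap (IsLocalRing.ResidueField A) (ResB A)).comp (IsLocalRing.residue A)

instance isLocalHom_redB : IsLocalHom (redB A) := by
  constructor
  intro a ha
  have h1 : IsUnit (IsLocalRing.residue A a) := by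
    rw [isUnit_iff_ne_zero] at ha ⊢
    rintro h
    apply ha
    rw [redB, RingHom.comp_apply, h, map_zero]
  exact isUnit_of_map_unit (IsLocalRing.residue A) a h1

omit hℓ in
lemma charP_resB (hl : ℓ.Prime) (hA : A.LiesOverPrime ℓ) : CharP (ResB A) ℓ := by
  rw [CharP.charP_iff_prime_eq_zero hl]
  have h1 : IsLocalRing.residue A (ℓ : A) = 0 := by
    rw [IsLocalRing.residue_eq_zero_iff, ← ValuationSubring.coe_mem_nonunits_iff]
    exact hA
  have h2 : redB A (ℓ : A) = 0 := by rw [redB, RingHom.comp_apply, h1, map_zero]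
  rw [map_natCast] at h2
  exact h2

lemma curveRd_int (W : WeierstrassCurve ℤ) :
    CurveRd (redB A) ((W.map (Int.castRingHom ℚ))⁄Kb) (W.map (Int.castRingHom (ResB A))) := by
  have h : ∀ z : ℤ, Rd (redB A) (algebraMap ℚ Kb ((Int.castRingHom ℚ) z))
      (Int.castRingHom (ResB A) z) := by
    intro z
    refine ⟨(z : A), by simp, by simp⟩
  exact ⟨h _, h _, h _, h _, h _⟩

lemma Rd.frob {σ : GQ} (hσ : A.IsFrobeniusAt σ ℓ) {z : Kb} {z' : ResB A}
    (h : Rd (redB A) z z') : Rd (redB A) (σ z) (z' ^ ℓ) := by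
  obtain ⟨a, rfl, rfl⟩ := h
  obtain ⟨hd, h⟩ := hσ
  refine ⟨(⟨σ, hd⟩ : A.decompositionSubgroup ℚ) • a, rfl, ?_⟩
  rw [redB, RingHom.comp_apply, RingHom.comp_apply, ← map_pow]
  congr 1
  rw [← h, IsLocalRing.ResidueField.residue_smul]

open scoped Pointwise in
lemma Frob.mem_of_map_mem {σ : GQ} (hσ : σ ∈ A.decompositionSubgroup ℚ) {x : Kb} (h : σ x ∈ A) :
    x ∈ A := by
  have h1 : σ • A = A := hσ
  rw [← h1, ValuationSubring.mem_smul_pointwise_iff_exists] at h
  obtain ⟨a, ha, h2⟩ := h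
  have h3 : σ a = σ x := h2
  rwa [← σ.injective h3]

lemma PtRd.gal {W : WeierstrassCurve ℤ} {σ : GQ} (hσ : A.IsFrobeniusAt σ ℓ) [CharP (ResB A) ℓ]
    {P : ((W.map (Int.castRingHom ℚ))⁄Kb).Point}
    {Q : (W.map (Int.castRingHom (ResB A))).toAffine.Point} (h : PtRd (redB A) P Q) :
    PtRd (redB A) (Point.map (W' := W.map (Int.castRingHom ℚ)) σ.toAlgHom P)
      (frobP ℓ (hk_int W) Q) := by
  rcases h with ⟨h1, rfl⟩ | ⟨x, y, h1, x', y', h2, rfl, rfl, hx, hy⟩
  · rw [map_zero]
    apply ptRd_of_inKer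
    rcases P with _ | ⟨x, y, hn⟩
    · exact inKer_zero
    · have hx := inKer_some.mp h1
      refine Or.inr ?_
      change 1 < A.valuation (σ x)
      by_contra hcon
      rw [not_lt, A.valuation_le_one_iff] at hcon
      exact absurd ((A.valuation_le_one_iff _).mpr
        (Frob.mem_of_map_mem hσ.mem_decompositionSubgroup hcon)) (not_le.mpr hx)
  · obtain ⟨h5, h6⟩ := frobP_some ℓ (hk_int (k := ResB A) W) h2
    rw [h6]
    exact ptRd_some (hx.frob hσ) (hy.frob hσ)

variable {W : WeierstrassCurve ℤ} {p : ℕ} [hp : Fact p.Prime]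

/-- Reduction of the `p`-torsion. -/
def redTors (A : ValuationSubring Kb) (W : WeierstrassCurve ℤ) (p : ℕ)
    [(W.map (Int.castRingHom (ResB A))).IsElliptic] :
    TorsP (W.map (Int.castRingHom ℚ)) p →+ (W.map (Int.castRingHom (ResB A))).toAffine.Point :=
  (redHom (curveRd_int W)).comp (Submodule.subtype _).toAddMonoidHom

lemma valuation_natCast_eq_one (hA : A.LiesOverPrime ℓ) (hpl : p ≠ ℓ) :
    A.valuation (p : Kb) = 1 := by
  have h1 : A.valuation (p : Kb) ≤ 1 := (A.valuation_le_one_iff _).mpr (natCast_mem A p)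
  refine le_antisymm h1 ?_
  by_contra hlt
  rw [not_le] at hlt
  have hcop : Nat.Coprime p ℓ := (Nat.coprime_primes hp.out hℓ.out).mpr hpl
  obtain ⟨u, v, huv⟩ := Nat.isCoprime_iff_coprime.mpr hcop
  have h2 : (u : Kb) * p + v * ℓ = 1 := by
    have := congrArg (Int.cast : ℤ → Kb) huv
    push_cast at this
    exact this
  have hl : A.valuation (ℓ : Kb) < 1 := hA
  have hu : A.valuation (u : Kb) ≤ 1 := (A.valuation_le_one_iff _).mpr (intCast_mem A u)
  have hv : A.valuation (v : Kb) ≤ 1 := (A.valuation_le_one_iff _).mpr (intCast_mem A v)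
  have h3 : A.valuation (1 : Kb) < 1 := by
    rw [← h2]
    refine lt_of_le_of_lt (A.valuation.map_add _ _) (max_lt ?_ ?_)
    · rw [map_mul]; exact (mul_le_of_le_one_left' hu).trans_lt hlt
    · rw [map_mul]; exact (mul_le_of_le_one_left' hv).trans_lt hl
  rw [map_one] at h3
  exact lt_irrefl _ h3

lemma redTors_injective (hA : A.LiesOverPrime ℓ) (hpl : p ≠ ℓ)
    [(W.map (Int.castRingHom (ResB A))).IsElliptic] :
    Function.Injective (redTors A W p) := by
  rw [injective_iff_map_eq_zero]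
  intro P hP
  have h1 : InKer A.valuation (P : ((W.map (Int.castRingHom ℚ))⁄Kb).Point) :=
    (redHom_eq_zero_iff (curveRd_int W)).mp hP
  have hv := valuation_natCast_eq_one hA hpl
  obtain ⟨P, hPt⟩ := P
  rcases P with _ | ⟨x, y, hn⟩
  · rfl
  · exfalso
    have h2 := integral_of_torsion (curveRd_int (A := A) W).vint hv
      (mem_torsionBy_iff'.mp hPt)
    exact absurd (inKer_some.mp h1) (not_lt.mpr h2)

open WeierstrassCurve.Affine.Point in
/-- **Trace and determinant of Frobenius** acting on the `p`-torsion. -/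
theorem trace_det_frobenius (hW : W.IsGoodPrimeFor ℓ) (hpl : p ≠ ℓ) (hA : A.LiesOverPrime ℓ)
    {σ : GQ} (hσ : A.IsFrobeniusAt σ ℓ) :
    LinearMap.trace (ZMod p) _ (galoisRepModuleEnd ℚ (W.map (Int.castRingHom ℚ)).toAffine p σ) =
      (W.apOfModel ℓ : ZMod p) ∧
    LinearMap.det (galoisRepModuleEnd ℚ (W.map (Int.castRingHom ℚ)).toAffine p σ) =
      (ℓ : ZMod p) := by
  have hch := charP_resB hℓ.out hA
  have hell := isElliptic_int (k := ResB A) hW
  have hell' : (W.map (Int.castRingHom ℚ)).IsElliptic := by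
    constructor
    rw [WeierstrassCurve.map_Δ, isUnit_iff_ne_zero]
    intro h
    apply hW
    rw [eq_intCast, Int.cast_eq_zero] at h
    rw [h]
    exact dvd_zero _
  have key := trace_det (k := ResB A) (hk_int (ℓ := ℓ) W) hpl
    (finrank_torsion (E := W.map (Int.castRingHom ℚ)) (p := p))
    (redTors A W p) (redTors_injective hA hpl)
    (galoisRepModuleEnd ℚ (W.map (Int.castRingHom ℚ)).toAffine p σ) (by
      intro v
      change redHom (curveRd_int W) _ = frobP ℓ _ (redHom (curveRd_int W) _)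
      rw [redHom_eq_iff]
      exact (redHom_spec (curveRd_int W) _).gal hσ)
  rw [aℓ_eq_apOfModel] at key
  exact key

end char0

end Fermat.Agent.EFrob
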