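import Fermat.Agent.ECT.AllPoints

set_option autoImplicit false

/-!
# The degree of the `x`-coordinate, and the parallelogram law
-/

namespace Fermat.Agent.EFrob

open WeierstrassCurve WeierstrassCurve.Affine Polynomial
open Fermat.Agent.ECT
open scoped Polynomial

section poly

variable {k : Type*} [Field k]

/-- the degree of a rational function `f / g`. -/
noncomputable def hh (f g : k[X]) : ℕ := max f.natDegree g.natDegree

lemma coeff_hh_ne {f g : k[X]} (h : IsCoprime f g) :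
    f.coeff (hh f g) ≠ 0 ∨ g.coeff (hh f g) ≠ 0 := by
  rcases le_total f.natDegree g.natDegree with h1 | h1
  · rw [hh, max_eq_right h1]
    by_cases hg : g = 0
    · subst hg
      have hf : IsUnit f := isCoprime_zero_right.mp h
      left
      have hf0 : f ≠ 0 := hf.ne_zero
      have : f.natDegree = 0 := natDegree_eq_zero_of_isUnit hf
      rw [natDegree_zero, ← this]
      exact leadingCoeff_ne_zero.mpr hf0
    · right
      exact leadingCoeff_ne_zero.mpr hg
  · rw [hh, max_eq_left h1]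
    by_cases hf : f = 0
    · subst hf
      have hg : IsUnit g := isCoprime_zero_left.mp h
      right
      have hg0 : g ≠ 0 := hg.ne_zero
      have : g.natDegree = 0 := natDegree_eq_zero_of_isUnit hg
      rw [natDegree_zero, ← this]
      exact leadingCoeff_ne_zero.mpr hg0
    · left
      exact leadingCoeff_ne_zero.mpr hf

lemma le_hh_left (f g : k[X]) : f.natDegree ≤ hh f g := le_max_left _ _
lemma le_hh_right (f g : k[X]) : g.natDegree ≤ hh f g := le_max_right _ _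

lemma eval_ne_of_coprime {f g : k[X]} (h : IsCoprime f g) (c : k) : f.eval c ≠ 0 ∨ g.eval c ≠ 0 := by
  by_contra hcon
  push Not at hcon
  obtain ⟨a, b, hab⟩ := h
  have := congrArg (eval c) hab
  rw [eval_add, eval_mul, eval_mul, hcon.1, hcon.2, mul_zero, mul_zero, add_zero, eval_one] at this
  exact zero_ne_one this

lemma bezout3 [IsAlgClosed k] {G0 G1 G2 : k[X]}
    (hG : ∀ c, G0.eval c ≠ 0 ∨ G1.eval c ≠ 0 ∨ G2.eval c ≠ 0) :
    ∃ a b c : k[X], a * G0 + b * G1 + c * G2 = 1 := by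
  have htop : Ideal.span {G0, G1, G2} = ⊤ := by
    by_contra hne
    obtain ⟨M, hM, hle⟩ := Ideal.exists_le_maximal _ hne
    obtain ⟨p, hp⟩ := (IsPrincipalIdealRing.principal M).principal
    have hp' : M = Ideal.span {p} := hp
    have hdvd : ∀ G ∈ ({G0, G1, G2} : Set k[X]), p ∣ G := by
      intro G hG'
      have : G ∈ M := hle (Ideal.subset_span hG')
      rw [hp'] at this
      exact Ideal.mem_span_singleton.mp this
    by_cases hp0 : p.degree = 0
    · apply hM.ne_top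
      rw [hp', Ideal.span_singleton_eq_top]
      exact isUnit_iff_degree_eq_zero.mpr hp0
    · obtain ⟨c, hc⟩ := IsAlgClosed.exists_root p hp0
      have hz : ∀ G ∈ ({G0, G1, G2} : Set k[X]), G.eval c = 0 := by
        intro G hG'
        obtain ⟨q, rfl⟩ := hdvd G hG'
        rw [eval_mul, hc.eq_zero, zero_mul]
      rcases hG c with h | h | h
      · exact h (hz _ (by simp))
      · exact h (hz _ (by simp))
      · exact h (hz _ (by simp))
  have h1 : (1 : k[X]) ∈ Ideal.span {G0, G1, G2} := by rw [htop]; trivial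
  rw [Ideal.mem_span_insert] at h1
  obtain ⟨a, z, hz, h1⟩ := h1
  rw [Ideal.mem_span_pair] at hz
  obtain ⟨b, c, hz⟩ := hz
  exact ⟨a, b, c, by rw [h1, ← hz]; ring⟩

lemma prop_prim [IsAlgClosed k] {G0 G1 G2 H0 H1 H2 : k[X]}
    (hG : ∀ c, G0.eval c ≠ 0 ∨ G1.eval c ≠ 0 ∨ G2.eval c ≠ 0)
    (hH : ∀ c, H0.eval c ≠ 0 ∨ H1.eval c ≠ 0 ∨ H2.eval c ≠ 0)
    (m01 : G0 * H1 = G1 * H0) (m02 : G0 * H2 = G2 * H0) (m12 : G1 * H2 = G2 * H1) :
    ∃ u : k, u ≠ 0 ∧ G0 = C u * H0 ∧ G1 = C u * H1 ∧ G2 = C u * H2 := by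
  obtain ⟨a, b, c, h1⟩ := bezout3 hG
  obtain ⟨a', b', c', h2⟩ := bezout3 hH
  set w := a * H0 + b * H1 + c * H2 with hw
  set w' := a' * G0 + b' * G1 + c' * G2 with hw'
  have e0 : G0 = w' * H0 := by
    rw [hw']; linear_combination (-G0) * h2 + b' * m01 + c' * m02
  have e1 : G1 = w' * H1 := by
    rw [hw']; linear_combination (-G1) * h2 - a' * m01 + c' * m12
  have e2 : G2 = w' * H2 := by
    rw [hw']; linear_combination (-G2) * h2 - a' * m02 - b' * m12
  have f0 : H0 = w * G0 := by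
    rw [hw]; linear_combination (-H0) * h1 - b * m01 - c * m02
  have f1 : H1 = w * G1 := by
    rw [hw]; linear_combination (-H1) * h1 + a * m01 - c * m12
  have f2 : H2 = w * G2 := by
    rw [hw]; linear_combination (-H2) * h1 + a * m02 + b * m12
  have hu : w' * w = 1 := by
    have : w' * w = w' * w * (a * G0 + b * G1 + c * G2) := by rw [h1, mul_one]
    rw [this]
    calc w' * w * (a * G0 + b * G1 + c * G2) = a * (w' * (w * G0)) + b * (w' * (w * G1)) +
          c * (w' * (w * G2)) := by ring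
      _ = 1 := by rw [← f0, ← f1, ← f2, ← e0, ← e1, ← e2, h1]
  have hunit : IsUnit w' := IsUnit.of_mul_eq_one _ hu
  obtain ⟨u, hu1, hu2⟩ := Polynomial.isUnit_iff.mp hunit
  refine ⟨u, hu1.ne_zero, ?_, ?_, ?_⟩ <;> rw [hu2] <;> assumption

end poly

variable {k K : Type*} [Field k] [Field K] [Algebra k K] {W : WeierstrassCurve k} {x : K}

/-- `x(R) = f / g` in lowest terms. -/
def Rep (x : K) (R : (W.map (algebraMap k K)).toAffine.Point) (f g : k[X]) : Prop :=
  IsCoprime f g ∧ xN R * aeval x g = xD R * aeval x f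

lemma xN_xD_ne {W : WeierstrassCurve K} (R : W.toAffine.Point) : xN R ≠ 0 ∨ xD R ≠ 0 := by
  by_cases h : R = 0
  · left; rw [h, xN_zero]; exact one_ne_zero
  · right; rw [xD_of_ne h]; exact one_ne_zero

lemma aeval_ne_of_coprime {f g : k[X]} (h : IsCoprime f g) : aeval x f ≠ 0 ∨ aeval x g ≠ 0 := by
  by_contra hcon
  push Not at hcon
  obtain ⟨a, b, hab⟩ := h
  have := congrArg (aeval x) hab
  rw [map_add, map_mul, map_mul, hcon.1, hcon.2, mul_zero, mul_zero, add_zero, map_one] at this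
  exact zero_ne_one this

/-- the homogeneous coordinates differ by a scalar. -/
lemma Rep.scale {R : (W.map (algebraMap k K)).toAffine.Point} {f g : k[X]} (h : Rep x R f g) :
    ∃ c : K, c ≠ 0 ∧ aeval x f = c * xN R ∧ aeval x g = c * xD R := by
  obtain ⟨hc, h⟩ := h
  rcases xN_xD_ne R with h0 | h0
  · refine ⟨aeval x f / xN R, ?_, by field_simp, ?_⟩
    · intro h1
      rw [div_eq_zero_iff] at h1
      rcases h1 with h1 | h1
      · rw [h1, mul_zero] at h
        rcases mul_eq_zero.mp h with h2 | h2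
        · exact h0 h2
        · rcases aeval_ne_of_coprime (x := x) hc with h3 | h3
          · exact h3 h1
          · exact h3 h2
      · exact h0 h1
    · field_simp
      linear_combination h
  · refine ⟨aeval x g / xD R, ?_, ?_, by field_simp⟩
    · intro h1
      rw [div_eq_zero_iff] at h1
      rcases h1 with h1 | h1
      · rw [h1, mul_zero] at h
        rcases mul_eq_zero.mp h.symm with h2 | h2
        · exact h0 h2
        · rcases aeval_ne_of_coprime (x := x) hc with h3 | h3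
          · exact h3 h2
          · exact h3 h1
      · exact h0 h1
    · field_simp
      linear_combination -h

variable (hinj : ∀ f : k[X], aeval x f = 0 → f = 0)
include hinj

lemma Rep.cross {R : (W.map (algebraMap k K)).toAffine.Point} {f g f' g' : k[X]}
    (h : Rep x R f g) (h' : Rep x R f' g') : f * g' = f' * g := by
  obtain ⟨c, -, h1, h2⟩ := h.scale
  obtain ⟨c', -, h3, h4⟩ := h'.scale
  rw [← sub_eq_zero]
  apply hinj
  rw [map_sub, map_mul, map_mul, h1, h2, h3, h4]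
  ring

lemma Rep.hh_eq {R : (W.map (algebraMap k K)).toAffine.Point} {f g f' g' : k[X]}
    (h : Rep x R f g) (h' : Rep x R f' g') :
    f.natDegree = f'.natDegree ∧ g.natDegree = g'.natDegree := by
  have hc := h.cross hinj h'
  have d1 : f ∣ f' := h.1.dvd_of_dvd_mul_right (Dvd.intro _ hc)
  have d2 : f' ∣ f := h'.1.dvd_of_dvd_mul_right (Dvd.intro _ hc.symm)
  have d3 : g ∣ g' := h.1.symm.dvd_of_dvd_mul_left (Dvd.intro_left _ hc.symm)
  have d4 : g' ∣ g := h'.1.symm.dvd_of_dvd_mul_left (Dvd.intro_left _ hc)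
  exact ⟨natDegree_eq_natDegree (degree_eq_degree_of_associated (associated_of_dvd_dvd d1 d2)),
    natDegree_eq_natDegree (degree_eq_degree_of_associated (associated_of_dvd_dvd d3 d4))⟩

theorem hh_parallelogram [DecidableEq K] [IsAlgClosed k] [hE : W.IsElliptic]
    {R S : (W.map (algebraMap k K)).toAffine.Point} {f₁ g₁ f₂ g₂ f₃ g₃ f₄ g₄ : k[X]}
    (h₁ : Rep x R f₁ g₁) (h₂ : Rep x S f₂ g₂) (h₃ : Rep x (R + S) f₃ g₃) (h₄ : Rep x (R - S) f₄ g₄) :
    hh f₃ g₃ + hh f₄ g₄ = 2 * (hh f₁ g₁ + hh f₂ g₂) := by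
  have hEK : (W.map (algebraMap k K)).IsElliptic := inferInstance
  obtain ⟨d, hd, r0, r1, r2⟩ := symRel_add_sub R S
  obtain ⟨c₁, hc₁, a₁, b₁⟩ := h₁.scale
  obtain ⟨c₂, hc₂, a₂, b₂⟩ := h₂.scale
  obtain ⟨c₃, hc₃, a₃, b₃⟩ := h₃.scale
  obtain ⟨c₄, hc₄, a₄, b₄⟩ := h₄.scale
  rw [map_b₄, map_b₆, map_b₈] at r0
  rw [map_b₂, map_b₄, map_b₆] at r1
  -- the quadratic forms
  set s := f₁ * f₂ with hs
  set t := f₁ * g₂ + g₁ * f₂ with ht
  set u := g₁ * g₂ with hu
  set G0 := s ^ 2 - C W.b₄ * s * u - C W.b₆ * t * u - C W.b₈ * u ^ 2 with hG0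
  set G1 := 2 * t * s + C W.b₂ * s * u + C W.b₄ * t * u + C W.b₆ * u ^ 2 with hG1
  set G2 := t ^ 2 - 4 * s * u with hG2
  set H0 := f₃ * f₄ with hH0
  set H1 := f₃ * g₄ + g₃ * f₄ with hH1
  set H2 := g₃ * g₄ with hH2
  -- a cheap general statement on products of two pairs
  have prod_ne : ∀ {F : Type _} [Field F] {a b c e : F}, (a ≠ 0 ∨ b ≠ 0) → (c ≠ 0 ∨ e ≠ 0) →
      ¬ (a * c = 0 ∧ a * e + b * c = 0 ∧ b * e = 0) := by
    rintro F _ a b c e h h' ⟨e1, e2, e3⟩
    rcases mul_eq_zero.mp e1 with h1 | h1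
    · subst h1
      have hb : b ≠ 0 := by simpa using h
      rw [zero_mul, zero_add] at e2
      have hc : c = 0 := (mul_eq_zero.mp e2).resolve_left hb
      have he : e = 0 := (mul_eq_zero.mp e3).resolve_left hb
      simp [hc, he] at h'
    · subst h1
      have he : e ≠ 0 := by simpa using h'
      rw [mul_zero, add_zero] at e2
      have ha : a = 0 := (mul_eq_zero.mp e2).resolve_right he
      have hb : b = 0 := (mul_eq_zero.mp e3).resolve_right he
      simp [ha, hb] at h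
  have Gne : ∀ {a b c e : k}, (a ≠ 0 ∨ b ≠ 0) → (c ≠ 0 ∨ e ≠ 0) →
      ((a * c) ^ 2 - W.b₄ * (a * c) * (b * e) - W.b₆ * (a * e + b * c) * (b * e) -
        W.b₈ * (b * e) ^ 2 ≠ 0 ∨
      2 * (a * e + b * c) * (a * c) + W.b₂ * (a * c) * (b * e) +
        W.b₄ * (a * e + b * c) * (b * e) + W.b₆ * (b * e) ^ 2 ≠ 0 ∨
      (a * e + b * c) ^ 2 - 4 * (a * c) * (b * e) ≠ 0) := by
    intro a b c e h h'
    by_contra hcon
    push Not at hcon
    exact prod_ne h h' (addSub_ne_zero hcon.1 hcon.2.1 hcon.2.2)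
  have hG : ∀ c, G0.eval c ≠ 0 ∨ G1.eval c ≠ 0 ∨ G2.eval c ≠ 0 := by
    intro c
    have := Gne (eval_ne_of_coprime h₁.1 c) (eval_ne_of_coprime h₂.1 c)
    simpa only [hG0, hG1, hG2, hs, ht, hu, eval_sub, eval_add, eval_mul, eval_pow, eval_C,
      eval_ofNat] using this
  have hH : ∀ c, H0.eval c ≠ 0 ∨ H1.eval c ≠ 0 ∨ H2.eval c ≠ 0 := by
    intro c
    have := prod_ne (eval_ne_of_coprime h₃.1 c) (eval_ne_of_coprime h₄.1 c)
    by_contra hcon
    push Not at hcon
    apply this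
    simpa only [hH0, hH1, hH2, eval_add, eval_mul] using hcon
  -- proportionality over `K`
  have p0 : aeval x G0 = c₁ ^ 2 * c₂ ^ 2 * d * (xN (R + S) * xN (R - S)) := by
    simp only [hG0, hs, ht, hu, map_sub, map_add, map_mul, map_pow, aeval_C, a₁, b₁, a₂, b₂]
    linear_combination c₁ ^ 2 * c₂ ^ 2 * r0
  have p1 : aeval x G1 = c₁ ^ 2 * c₂ ^ 2 * d *
      (xN (R + S) * xD (R - S) + xD (R + S) * xN (R - S)) := by
    simp only [hG1, hs, ht, hu, map_add, map_mul, map_pow, aeval_C, a₁, b₁, a₂, b₂, map_ofNat]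
    linear_combination c₁ ^ 2 * c₂ ^ 2 * r1
  have p2 : aeval x G2 = c₁ ^ 2 * c₂ ^ 2 * d * (xD (R + S) * xD (R - S)) := by
    simp only [hG2, hs, ht, hu, map_sub, map_add, map_mul, map_pow, a₁, b₁, a₂, b₂, map_ofNat]
    linear_combination c₁ ^ 2 * c₂ ^ 2 * r2
  have q0 : aeval x H0 = c₃ * c₄ * (xN (R + S) * xN (R - S)) := by
    simp only [hH0, map_mul, a₃, a₄]; ring
  have q1 : aeval x H1 = c₃ * c₄ * (xN (R + S) * xD (R - S) + xD (R + S) * xN (R - S)) := by
    simp only [hH1, map_add, map_mul, a₃, a₄, b₃, b₄]; ring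
  have q2 : aeval x H2 = c₃ * c₄ * (xD (R + S) * xD (R - S)) := by
    simp only [hH2, map_mul, b₃, b₄]; ring
  have m01 : G0 * H1 = G1 * H0 := by
    rw [← sub_eq_zero]
    apply hinj
    rw [map_sub, map_mul (aeval x) G0 H1, map_mul (aeval x) G1 H0, p0, p1, q0, q1]; ring
  have m02 : G0 * H2 = G2 * H0 := by
    rw [← sub_eq_zero]
    apply hinj
    rw [map_sub, map_mul (aeval x) G0 H2, map_mul (aeval x) G2 H0, p0, p2, q0, q2]; ring
  have m12 : G1 * H2 = G2 * H1 := by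
    rw [← sub_eq_zero]
    apply hinj
    rw [map_sub, map_mul (aeval x) G1 H2, map_mul (aeval x) G2 H1, p1, p2, q1, q2]; ring
  obtain ⟨w, hw, e0, e1, e2⟩ := prop_prim hG hH m01 m02 m12
  -- degrees
  set N₁ := hh f₁ g₁ with hN₁
  set N₂ := hh f₂ g₂ with hN₂
  set N₃ := hh f₃ g₃ with hN₃
  set N₄ := hh f₄ g₄ with hN₄
  have df₁ : f₁.natDegree ≤ N₁ := le_hh_left _ _
  have dg₁ : g₁.natDegree ≤ N₁ := le_hh_right _ _
  have df₂ : f₂.natDegree ≤ N₂ := le_hh_left _ _
  have dg₂ : g₂.natDegree ≤ N₂ := le_hh_right _ _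
  have df₃ : f₃.natDegree ≤ N₃ := le_hh_left _ _
  have dg₃ : g₃.natDegree ≤ N₃ := le_hh_right _ _
  have df₄ : f₄.natDegree ≤ N₄ := le_hh_left _ _
  have dg₄ : g₄.natDegree ≤ N₄ := le_hh_right _ _
  have ds : s.natDegree ≤ N₁ + N₂ := natDegree_mul_le_of_le df₁ df₂
  have dt : t.natDegree ≤ N₁ + N₂ :=
    natDegree_add_le_of_degree_le (natDegree_mul_le_of_le df₁ dg₂) (natDegree_mul_le_of_le dg₁ df₂)
  have du : u.natDegree ≤ N₁ + N₂ := natDegree_mul_le_of_le dg₁ dg₂
  have cs : s.coeff (N₁ + N₂) = f₁.coeff N₁ * f₂.coeff N₂ := coeff_mul_add_eq_of_natDegree_le df₁ df₂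
  have ct : t.coeff (N₁ + N₂) = f₁.coeff N₁ * g₂.coeff N₂ + g₁.coeff N₁ * f₂.coeff N₂ := by
    rw [ht, coeff_add, coeff_mul_add_eq_of_natDegree_le df₁ dg₂,
      coeff_mul_add_eq_of_natDegree_le dg₁ df₂]
  have cu : u.coeff (N₁ + N₂) = g₁.coeff N₁ * g₂.coeff N₂ := coeff_mul_add_eq_of_natDegree_le dg₁ dg₂
  set M := N₁ + N₂ with hM
  have dmul : ∀ {a b : k[X]}, a.natDegree ≤ M → b.natDegree ≤ M → (a * b).natDegree ≤ M + M :=
    fun ha hb => natDegree_mul_le_of_le ha hb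
  have cmul : ∀ {a b : k[X]}, a.natDegree ≤ M → b.natDegree ≤ M →
      (a * b).coeff (M + M) = a.coeff M * b.coeff M :=
    fun ha hb => coeff_mul_add_eq_of_natDegree_le ha hb
  have dCmul : ∀ (c : k) {a : k[X]}, a.natDegree ≤ M → (C c * a).natDegree ≤ M := by
    intro c a ha
    exact (natDegree_C_mul_le _ _).trans ha
  have two : (2 : k[X]) = C 2 := (map_ofNat C 2).symm
  have four : (4 : k[X]) = C 4 := (map_ofNat C 4).symm
  have dG0 : G0.natDegree ≤ M + M := by
    rw [hG0, sq, sq]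
    refine (natDegree_sub_le_of_le (natDegree_sub_le_of_le (natDegree_sub_le_of_le
      (dmul ds ds) (dmul (dCmul _ ds) du)) (dmul (dCmul _ dt) du))
      ((natDegree_C_mul_le _ _).trans (dmul du du))).trans ?_
    simp
  have dG1 : G1.natDegree ≤ M + M := by
    rw [hG1, sq, two]
    refine natDegree_add_le_of_degree_le (natDegree_add_le_of_degree_le
      (natDegree_add_le_of_degree_le (dmul (dCmul _ dt) ds) (dmul (dCmul _ ds) du))
      (dmul (dCmul _ dt) du)) ((natDegree_C_mul_le _ _).trans (dmul du du))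
  have dG2 : G2.natDegree ≤ M + M := by
    rw [hG2, sq, four]
    refine (natDegree_sub_le_of_le (dmul dt dt) (dmul (dCmul _ ds) du)).trans ?_
    simp
  have cG0 : G0.coeff (M + M) = (s.coeff M) ^ 2 - W.b₄ * s.coeff M * u.coeff M -
      W.b₆ * t.coeff M * u.coeff M - W.b₈ * (u.coeff M) ^ 2 := by
    rw [hG0, sq, sq, coeff_sub, coeff_sub, coeff_sub, cmul ds ds, cmul (dCmul _ ds) du,
      cmul (dCmul _ dt) du, coeff_C_mul, coeff_C_mul, coeff_C_mul, cmul du du]
    ring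
  have cG1 : G1.coeff (M + M) = 2 * t.coeff M * s.coeff M + W.b₂ * s.coeff M * u.coeff M +
      W.b₄ * t.coeff M * u.coeff M + W.b₆ * (u.coeff M) ^ 2 := by
    rw [hG1, sq, two, coeff_add, coeff_add, coeff_add, cmul (dCmul _ dt) ds, cmul (dCmul _ ds) du,
      cmul (dCmul _ dt) du, coeff_C_mul, coeff_C_mul, coeff_C_mul, coeff_C_mul, cmul du du]
    ring
  have cG2 : G2.coeff (M + M) = (t.coeff M) ^ 2 - 4 * s.coeff M * u.coeff M := by
    rw [hG2, sq, four, coeff_sub, cmul dt dt, cmul (dCmul _ ds) du, coeff_C_mul]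
    ring
  have topG : G0.coeff (M + M) ≠ 0 ∨ G1.coeff (M + M) ≠ 0 ∨ G2.coeff (M + M) ≠ 0 := by
    have := Gne (coeff_hh_ne h₁.1) (coeff_hh_ne h₂.1)
    rw [cG0, cG1, cG2, cs, ct, cu]
    exact this
  have dH0 : H0.natDegree ≤ N₃ + N₄ := natDegree_mul_le_of_le df₃ df₄
  have dH1 : H1.natDegree ≤ N₃ + N₄ :=
    natDegree_add_le_of_degree_le (natDegree_mul_le_of_le df₃ dg₄) (natDegree_mul_le_of_le dg₃ df₄)
  have dH2 : H2.natDegree ≤ N₃ + N₄ := natDegree_mul_le_of_le dg₃ dg₄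
  have topH : H0.coeff (N₃ + N₄) ≠ 0 ∨ H1.coeff (N₃ + N₄) ≠ 0 ∨ H2.coeff (N₃ + N₄) ≠ 0 := by
    have := prod_ne (coeff_hh_ne h₃.1) (coeff_hh_ne h₄.1)
    by_contra hcon
    push Not at hcon
    apply this
    rw [hH0, hH1, hH2, coeff_add, coeff_mul_add_eq_of_natDegree_le df₃ df₄,
      coeff_mul_add_eq_of_natDegree_le df₃ dg₄, coeff_mul_add_eq_of_natDegree_le dg₃ df₄,
      coeff_mul_add_eq_of_natDegree_le dg₃ dg₄] at hcon
    exact hcon
  have le1 : M + M ≤ N₃ + N₄ := by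
    by_contra hlt
    rw [not_le] at hlt
    rw [e0, e1, e2, coeff_C_mul, coeff_C_mul, coeff_C_mul,
      coeff_eq_zero_of_natDegree_lt (dH0.trans_lt hlt),
      coeff_eq_zero_of_natDegree_lt (dH1.trans_lt hlt),
      coeff_eq_zero_of_natDegree_lt (dH2.trans_lt hlt)] at topG
    simp at topG
  have le2 : N₃ + N₄ ≤ M + M := by
    by_contra hlt
    rw [not_le] at hlt
    have z0 := coeff_eq_zero_of_natDegree_lt (dG0.trans_lt hlt)
    have z1 := coeff_eq_zero_of_natDegree_lt (dG1.trans_lt hlt)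
    have z2 := coeff_eq_zero_of_natDegree_lt (dG2.trans_lt hlt)
    rw [e0, coeff_C_mul] at z0
    rw [e1, coeff_C_mul] at z1
    rw [e2, coeff_C_mul] at z2
    rcases topH with h | h | h
    · exact h ((mul_eq_zero.mp z0).resolve_left hw)
    · exact h ((mul_eq_zero.mp z1).resolve_left hw)
    · exact h ((mul_eq_zero.mp z2).resolve_left hw)
  omega

end Fermat.Agent.EFrob
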