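import Fermat.Agent.EFrob.Spec

set_option autoImplicit false

/-!
# Separability of `n + φ ∘ S` for `n` invertible: behaviour at infinity
-/

namespace Fermat.Agent.EFrob

open WeierstrassCurve WeierstrassCurve.Affine Polynomial
open Fermat.Agent.ECT
open Fermat.Agent.EC
open scoped Polynomial

section val

variable {K : Type*} [Field K] {Γ₀ : Type*} [LinearOrderedCommGroupWithZero Γ₀]
  {v : Valuation K Γ₀} {W : WeierstrassCurve K}

/-- near infinity, `v(x) v(x / y)² = 1`. -/
lemma v_x_mul_z_sq (hW : VInt v W) {x y : K} (h : W.toAffine.Equation x y) (hy : y ≠ 0)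
    (hw : v (1 / y) < 1) (hz : v (x / y) < 1) (hz0 : x ≠ 0) : v x * v (x / y) ^ 2 = 1 := by
  have h1 := zw_eq h hy
  have h2 := v_one_add (v_unit hW hz le_rfl hw)
  have h3 := congrArg v h1
  rw [map_mul, h2, mul_one, map_pow] at h3
  -- `v (1/y) = v(z)^3`, `x = z / w`
  have hx : x = (x / y) / (1 / y) := by field_simp
  have hz' : v (x / y) ≠ 0 := (Valuation.ne_zero_iff v).mpr (div_ne_zero hz0 hy)
  have hvx : v x = v (x / y) / v (x / y) ^ 3 := by
    conv_lhs => rw [hx]
    rw [map_div₀, h3]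
  rw [hvx, div_mul_eq_mul_div, ← pow_succ', div_self (pow_ne_zero _ hz')]

end val

variable {k K : Type*} [Field k] [Field K] [Algebra k K] {W : WeierstrassCurve k}

lemma v_const {V : ValuationSubring K} (hV : ∀ c : k, algebraMap k K c ∈ V) {c : k} (hc : c ≠ 0) :
    V.valuation (algebraMap k K c) = 1 := by
  refine le_antisymm ((V.valuation_le_one_iff _).mpr (hV c)) ?_
  have h1 : V.valuation (algebraMap k K c⁻¹) ≤ 1 := (V.valuation_le_one_iff _).mpr (hV c⁻¹)
  have h2 : algebraMap k K c * algebraMap k K c⁻¹ = 1 := by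
    rw [← map_mul, mul_inv_cancel₀ hc, map_one]
  have h3 := congrArg V.valuation h2
  rw [map_mul, map_one] at h3
  rw [← h3]
  exact mul_le_of_le_one_right' h1

lemma v_const_le {V : ValuationSubring K} (hV : ∀ c : k, algebraMap k K c ∈ V) (c : k) :
    V.valuation (algebraMap k K c) ≤ 1 := (V.valuation_le_one_iff _).mpr (hV c)

/-- the valuation of a polynomial at a place where `x` has a pole -/
lemma v_aeval {V : ValuationSubring K} (hV : ∀ c : k, algebraMap k K c ∈ V) {x : K}
    (hx : 1 < V.valuation x) {f : k[X]} (hf : f ≠ 0) :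
    V.valuation (aeval x f) = V.valuation x ^ f.natDegree := by
  rw [aeval_eq_sum_range, Finset.sum_range_succ]
  have hlead : V.valuation (f.coeff f.natDegree • x ^ f.natDegree) =
      V.valuation x ^ f.natDegree := by
    have hlc : f.coeff f.natDegree ≠ 0 := leadingCoeff_ne_zero.mpr hf
    rw [Algebra.smul_def, map_mul, v_const hV hlc, one_mul, map_pow]
  rw [Valuation.map_add_eq_of_lt_right, hlead]
  rw [hlead]
  apply Valuation.map_sum_lt
  · exact (pow_pos (zero_lt_one.trans hx) _).ne'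
  · intro i hi
    rw [Finset.mem_range] at hi
    rw [Algebra.smul_def, map_mul, map_pow]
    calc V.valuation (algebraMap k K (f.coeff i)) * V.valuation x ^ i ≤ V.valuation x ^ i :=
          mul_le_of_le_one_left' (v_const_le hV _)
      _ < V.valuation x ^ f.natDegree := pow_lt_pow_right₀ hx hi

lemma vint_const {V : ValuationSubring K} (hV : ∀ c : k, algebraMap k K c ∈ V) :
    VInt V.valuation (W.map (algebraMap k K)) where
  a₁ := v_const_le hV _
  a₂ := v_const_le hV _
  a₃ := v_const_le hV _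
  a₄ := v_const_le hV _
  a₆ := v_const_le hV _

variable [DecidableEq K] {x y : K}

/-- `z(φ S) = z(S)^ℓ`. -/
lemma inE_frob {ℓ : ℕ} [hℓ : Fact ℓ.Prime] [CharP K ℓ] {W : WeierstrassCurve K}
    (hK : W.map (frobenius K ℓ) = W) {V : ValuationSubring K} {S : W.toAffine.Point}
    {ρ : V.ValueGroup} (hρ : ρ < 1) (hS : InE V.valuation ρ S) :
    InE V.valuation (ρ ^ 2) (frobP ℓ hK S) ∧ V.valuation (zc (frobP ℓ hK S)) ≤ ρ ^ 2 := by
  have h2 : 2 ≤ ℓ := hℓ.out.two_le
  rcases S with _ | ⟨X, Y, hn⟩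
  · change InE _ _ (frobP ℓ hK 0) ∧ V.valuation (zc (frobP ℓ hK 0)) ≤ _
    rw [_root_.map_zero]
    refine ⟨InE_zero, ?_⟩
    rw [zc_zero, map_zero]
    exact zero_le
  · obtain ⟨h3, h4⟩ := frobP_some ℓ hK hn
    obtain ⟨h5, h6, h7⟩ := hS
    rw [h4]
    have h8 : V.valuation (X ^ ℓ / Y ^ ℓ) ≤ ρ ^ 2 := by
      rw [← div_pow, map_pow]
      calc V.valuation (X / Y) ^ ℓ ≤ ρ ^ ℓ := pow_le_pow_left' h7 ℓ
        _ ≤ ρ ^ 2 := pow_le_pow_right_of_le_one' hρ.le h2
    refine ⟨⟨pow_ne_zero _ h5, ?_, h8⟩, ?_⟩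
    · rw [← one_div_pow, map_pow]
      exact pow_lt_one₀ zero_le h6 (by omega)
    · rw [zc_some]; exact h8

/-- The degree condition for `n P + φ(S)`, `n` invertible in `k`. -/
theorem natDegree_of_separable {ℓ : ℕ} [hℓ : Fact ℓ.Prime] [CharP K ℓ]
    (hK : (W.map (algebraMap k K)).map (frobenius K ℓ) = W.map (algebraMap k K))
    (hinf : ∃ V : ValuationSubring K, (∀ c : k, algebraMap k K c ∈ V) ∧ 1 < V.valuation x)
    (hn : (W.map (algebraMap k K)).toAffine.Nonsingular x y)
    {R S : (W.map (algebraMap k K)).toAffine.Point} {n : ℕ} (hnk : (n : k) ≠ 0)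
    (hR : R = n • .some x y hn + frobP ℓ hK S)
    (hS : ∀ (V : ValuationSubring K) (ρ : V.ValueGroup), VInt V.valuation (W.map (algebraMap k K)) →
      ρ < 1 → InE V.valuation ρ (.some x y hn : (W.map (algebraMap k K)).toAffine.Point) →
      InE V.valuation ρ S)
    {f g : k[X]} (hfg : Rep x R f g) : f.natDegree = g.natDegree + 1 := by
  obtain ⟨V, hV, hx⟩ := hinf
  have hW : VInt V.valuation (W.map (algebraMap k K)) := vint_const hV
  obtain ⟨hy0, hw, hz⟩ := zw_of_one_lt hW hn.1 hx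
  set ρ := V.valuation (x / y) with hρ
  have hP : InE V.valuation ρ (.some x y hn : (W.map (algebraMap k K)).toAffine.Point) :=
    ⟨hy0, hw, le_rfl⟩
  have hSE := hS V ρ hW hz hP
  obtain ⟨h1, h2⟩ := inE_frob hK hz hSE
  obtain ⟨h3, h4⟩ := InE_nsmul hW hz hP n
  have h1' : InE V.valuation ρ (frobP ℓ hK S) :=
    h1.mono (pow_le_of_le_one zero_le hz.le two_ne_zero)
  obtain ⟨h5, h6⟩ := InE_add hW hz h3 h1'
  rw [← hR] at h5 h6
  have hx0 : x ≠ 0 := by
    rintro rfl
    simp at hx
  have hρ0 : ρ ≠ 0 := (Valuation.ne_zero_iff _).mpr (div_ne_zero hx0 hy0)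
  have hρ2 : ρ ^ 2 < ρ := by
    rw [sq]
    calc ρ * ρ < ρ * 1 := mul_lt_mul_of_pos_left hz (zero_lt_iff.mpr hρ0)
      _ = ρ := mul_one _
  have hzn : V.valuation ((n : K) * (x / y)) = ρ := by
    rw [map_mul, show (n : K) = algebraMap k K (n : k) by simp, v_const hV hnk, one_mul]
  have h7 : V.valuation (zc R - (n : K) * (x / y)) ≤ ρ ^ 2 := by
    have : zc R - (n : K) * (x / y) =
        (zc R - zc (n • (.some x y hn : (W.map (algebraMap k K)).toAffine.Point)) -
          zc (frobP ℓ hK S)) +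
        (zc (n • (.some x y hn : (W.map (algebraMap k K)).toAffine.Point)) - (n : K) * (x / y)) +
        zc (frobP ℓ hK S) := by ring
    rw [this]
    exact v_add_le (v_add_le h6 h4) h2
  have h8 : V.valuation (zc R) = ρ := by
    have : zc R = (n : K) * (x / y) + (zc R - (n : K) * (x / y)) := by ring
    rw [this, Valuation.map_add_eq_of_lt_left, hzn]
    rw [hzn]
    exact h7.trans_lt hρ2
  -- `v (x R) = v x`
  rcases R with _ | ⟨X, Y, hXY⟩
  · exfalso
    rw [show zc (Point.zero : (W.map (algebraMap k K)).toAffine.Point) = 0 from rfl, map_zero] at h8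
    exact hρ0 h8.symm
  rw [zc_some] at h8
  obtain ⟨hY0, hY1, -⟩ := h5
  have hX0 : X ≠ 0 := by
    rintro rfl
    rw [zero_div, map_zero] at h8
    exact hρ0 h8.symm
  have e1 := v_x_mul_z_sq hW hXY.1 hY0 hY1 (by rw [h8]; exact hz) hX0
  have e2 := v_x_mul_z_sq hW hn.1 hy0 hw hz hx0
  rw [h8] at e1
  have e3 : V.valuation X = V.valuation x :=
    mul_right_cancel₀ (pow_ne_zero 2 hρ0) (e1.trans e2.symm)
  have hrel := hfg.2
  rw [xN_some, xD_some, one_mul] at hrel
  have hg0 : g ≠ 0 := by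
    rintro rfl
    rw [map_zero, mul_zero] at hrel
    have hf : IsUnit f := isCoprime_zero_right.mp hfg.1
    obtain ⟨u, hu, rfl⟩ := Polynomial.isUnit_iff.mp hf
    rw [aeval_C] at hrel
    exact hu.ne_zero ((map_eq_zero _).mp hrel.symm)
  have hf0 : f ≠ 0 := by
    rintro rfl
    rw [map_zero] at hrel
    rcases mul_eq_zero.mp hrel with h | h
    · exact hX0 h
    · have := v_aeval hV hx hg0
      rw [h, map_zero] at this
      exact (pow_pos (zero_lt_one.trans hx) _).ne this
  have h9 := congrArg V.valuation hrel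
  rw [map_mul, e3, v_aeval hV hx hf0, v_aeval hV hx hg0, ← pow_succ'] at h9
  exact (pow_right_injective₀ (zero_lt_one.trans hx) hx.ne' h9).symm

end Fermat.Agent.EFrob
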