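import Fermat.Agent.ECT.AllPoints

set_option autoImplicit false

/-!
# Counting the kernel of an endomorphism given on `x`-coordinates by a separable rational function
-/

namespace Fermat.Agent.EFrob

open WeierstrassCurve WeierstrassCurve.Affine Polynomial
open Fermat.Agent.ECT
open Fermat.Agent.EC (xc xc_some eq_or_eq_neg_of_xc)
open scoped Polynomial

variable {k : Type*} [Field k] [DecidableEq k] [IsAlgClosed k] {W : WeierstrassCurve k}
  [hE : W.IsElliptic]

/-- `α` is given on `x`-coordinates by `f / g`. -/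
structure XMap (α : W.toAffine.Point →+ W.toAffine.Point) (f g : k[X]) : Prop where
  coprime : IsCoprime f g
  eq : ∀ P : W.toAffine.Point, P ≠ 0 → xN (α P) * g.eval (xc P) = xD (α P) * f.eval (xc P)

namespace XMap

variable {α : W.toAffine.Point →+ W.toAffine.Point} {f g : k[X]} (H : XMap α f g)
include H

lemma eval_ne (c : k) : f.eval c ≠ 0 ∨ g.eval c ≠ 0 := by
  by_contra hcon
  push Not at hcon
  obtain ⟨a, b, hab⟩ := H.coprime
  have := congrArg (eval c) hab
  rw [eval_add, eval_mul, eval_mul, hcon.1, hcon.2, mul_zero, mul_zero, add_zero, eval_one] at this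
  exact zero_ne_one this

lemma eq_zero_iff {P : W.toAffine.Point} (hP : P ≠ 0) : α P = 0 ↔ g.eval (xc P) = 0 := by
  have h := H.eq P hP
  constructor
  · intro h0
    rw [h0, xN_zero, xD_zero, one_mul, zero_mul] at h
    exact h
  · intro h0
    by_contra hne
    rw [h0, mul_zero, xD_of_ne hne, one_mul] at h
    rcases H.eval_ne (xc P) with h1 | h1
    · exact h1 h.symm
    · exact h1 h0

lemma xc_eq {P : W.toAffine.Point} (hP : P ≠ 0) {c : k} :
    (α P ≠ 0 ∧ xc (α P) = c) ↔ c * g.eval (xc P) = f.eval (xc P) := by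
  have h := H.eq P hP
  constructor
  · rintro ⟨h1, rfl⟩
    rw [xN_of_ne h1, xD_of_ne h1, one_mul] at h
    exact h
  · intro h1
    have hg : g.eval (xc P) ≠ 0 := by
      intro h0
      rw [h0, mul_zero] at h1
      rcases H.eval_ne (xc P) with h2 | h2
      · exact h2 h1.symm
      · exact h2 h0
    have h2 : α P ≠ 0 := fun h0 => hg ((H.eq_zero_iff hP).mp h0)
    refine ⟨h2, ?_⟩
    rw [xN_of_ne h2, xD_of_ne h2, one_mul, ← h1] at h
    exact mul_right_cancel₀ hg h

/-- a separable, nonconstant map is surjective. -/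
theorem surjective (hdeg : g.natDegree < f.natDegree) : Function.Surjective α := by
  intro Q
  by_cases hQ : Q = 0
  · exact ⟨0, by rw [hQ, map_zero]⟩
  set c := xc Q with hc
  have hdeg' : (f - C c * g).natDegree = f.natDegree :=
    natDegree_sub_eq_left_of_natDegree_lt ((natDegree_C_mul_le _ _).trans_lt hdeg)
  have hd0 : (f - C c * g).degree ≠ 0 := by
    intro h0
    have := natDegree_eq_zero_iff_degree_le_zero.mpr h0.le
    omega
  obtain ⟨x, hx⟩ := IsAlgClosed.exists_root _ hd0
  obtain ⟨y, hy⟩ := exists_point (W := W) x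
  have hroot : c * g.eval x = f.eval x := by
    have := hx.eq_zero
    rw [eval_sub, eval_mul, eval_C, sub_eq_zero] at this
    exact this.symm
  have hP : (.some x y hy : W.toAffine.Point) ≠ 0 := Point.some_ne_zero hy
  obtain ⟨h1, h2⟩ := (H.xc_eq hP (c := c)).mpr (by rw [xc_some]; exact hroot)
  rcases eq_or_eq_neg_of_xc h1 hQ (h2.trans hc) with h | h
  · exact ⟨_, h⟩
  · exact ⟨-.some x y hy, by rw [map_neg, h, neg_neg]⟩

theorem card_ker (hdeg : f.natDegree = g.natDegree + 1) :
    Nat.card {P : W.toAffine.Point // α P = 0} = f.natDegree := by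
  have := IsAlgClosed.instInfinite (K := k)
  have hg0 : g ≠ 0 := by
    rintro rfl
    have h1 : IsUnit f := isCoprime_zero_right.mp H.coprime
    have := natDegree_eq_zero_of_isUnit h1
    omega
  have hf0 : f ≠ 0 := by
    rintro rfl
    simp at hdeg
  -- the Wronskian
  set wr : k[X] := derivative f * g - f * derivative g with hwr
  have hW : wr ≠ 0 := by
    intro h0
    have t1 : (derivative f * g).coeff (g.natDegree + g.natDegree) =
        (derivative f).coeff g.natDegree * g.coeff g.natDegree :=
      coeff_mul_add_eq_of_natDegree_le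
        ((natDegree_derivative_le f).trans (by omega)) le_rfl
    by_cases hgd : g.natDegree = 0
    · have hg' : derivative g = 0 := by
        rw [eq_C_of_natDegree_eq_zero hgd, derivative_C]
      rw [hwr, hg', mul_zero, sub_zero] at h0
      rw [h0, coeff_zero, coeff_derivative, ← hdeg] at t1
      have h1 := leadingCoeff_ne_zero.mpr hf0
      have h2 := leadingCoeff_ne_zero.mpr hg0
      rw [leadingCoeff] at h1 h2
      rw [hgd] at t1 h2
      simp only [Nat.cast_zero, zero_add, mul_one] at t1
      rcases mul_eq_zero.mp t1.symm with h | h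
      · exact h1 h
      · exact h2 h
    · have t2 : (f * derivative g).coeff ((g.natDegree + 1) + (g.natDegree - 1)) =
          f.coeff (g.natDegree + 1) * (derivative g).coeff (g.natDegree - 1) :=
        coeff_mul_add_eq_of_natDegree_le hdeg.le (natDegree_derivative_le g)
      have e : (g.natDegree + 1) + (g.natDegree - 1) = g.natDegree + g.natDegree := by omega
      have e' : g.natDegree - 1 + 1 = g.natDegree := by omega
      rw [e, coeff_derivative, e'] at t2
      rw [coeff_derivative] at t1
      have h1 := congrArg (fun p : k[X] => p.coeff (g.natDegree + g.natDegree)) h0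
      simp only [hwr, coeff_sub, t1, t2, coeff_zero] at h1
      have hcast : ((g.natDegree - 1 : ℕ) : k) + 1 = g.natDegree := by
        rw [← Nat.cast_succ, Nat.succ_eq_add_one, e']
      rw [hcast] at h1
      have h3 : f.coeff (g.natDegree + 1) * g.coeff g.natDegree = 0 := by
        linear_combination h1
      have h4 := leadingCoeff_ne_zero.mpr hf0
      have h5 := leadingCoeff_ne_zero.mpr hg0
      rw [leadingCoeff, hdeg] at h4
      rw [leadingCoeff] at h5
      rcases mul_eq_zero.mp h3 with h | h
      · exact h4 h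
      · exact h5 h
  have hψ := Psi2Sq_ne_zero (W := W)
  let S1 : Set k := (fun x => f.eval x / g.eval x) '' {x | wr.eval x = 0}
  let S3 : Set k := {x | W.Ψ₂Sq.eval x = 0}
  have hfin : ∀ F : k[X], F ≠ 0 → {x | F.eval x = 0}.Finite := by
    intro F hF
    refine Set.Finite.subset (F.roots.toFinset.finite_toSet) ?_
    intro x hx
    simpa [hF] using hx
  have hS : (S1 ∪ S3).Finite := ((hfin _ hW).image _).union (hfin _ hψ)
  obtain ⟨c, hc⟩ := hS.infinite_compl.nonempty
  simp only [Set.compl_union, Set.mem_inter_iff, Set.mem_compl_iff] at hc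
  obtain ⟨hc1, hc3⟩ := hc
  set fib : k[X] := f - C c * g with hfib
  have hdf : fib.natDegree = f.natDegree :=
    natDegree_sub_eq_left_of_natDegree_lt ((natDegree_C_mul_le _ _).trans_lt (by omega))
  have hfib0 : fib ≠ 0 := by
    intro h0
    rw [h0, natDegree_zero] at hdf
    omega
  have hroot : ∀ x, x ∈ fib.roots.toFinset ↔ c * g.eval x = f.eval x := by
    intro x
    rw [Multiset.mem_toFinset, mem_roots hfib0, IsRoot, hfib, eval_sub, eval_mul, eval_C, sub_eq_zero]
    exact eq_comm
  have hcard : fib.roots.toFinset.card = f.natDegree := by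
    rw [Multiset.toFinset_card_of_nodup]
    · rw [← hdf]
      exact (IsAlgClosed.splits _).natDegree_eq_card_roots.symm
    · rw [Multiset.nodup_iff_count_le_one]
      intro x
      rw [count_roots]
      by_contra hlt
      push Not at hlt
      rw [one_lt_rootMultiplicity_iff_isRoot hfib0] at hlt
      obtain ⟨h1, h2⟩ := hlt
      have h1' : f.eval x = c * g.eval x := by
        have := h1.eq_zero
        rw [hfib, eval_sub, eval_mul, eval_C] at this
        exact sub_eq_zero.mp this
      have hgx : g.eval x ≠ 0 := by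
        intro h0
        rcases H.eval_ne x with h | h
        · exact h (by rw [h1', h0, mul_zero])
        · exact h h0
      apply hc1
      refine ⟨x, ?_, ?_⟩
      · have h2' := h2.eq_zero
        rw [hfib, derivative_sub, derivative_mul, derivative_C, zero_mul, zero_add, eval_sub,
          eval_mul, eval_C] at h2'
        change wr.eval x = 0
        rw [hwr, eval_sub, eval_mul, eval_mul, h1']
        linear_combination g.eval x * h2'
      · change f.eval x / g.eval x = c
        rw [h1', mul_div_assoc, div_self hgx, mul_one]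
  -- a base point
  obtain ⟨x₀, hx₀⟩ : (fib.roots.toFinset).Nonempty := by
    rw [← Finset.card_pos, hcard]
    omega
  rw [hroot] at hx₀
  obtain ⟨y₀, hy₀⟩ := exists_point (W := W) x₀
  obtain ⟨P₀, hP₀, hxP₀⟩ : ∃ P : W.toAffine.Point, P ≠ 0 ∧ xc P = x₀ :=
    ⟨.some x₀ y₀ hy₀, Point.some_ne_zero hy₀, xc_some hy₀⟩
  obtain ⟨hQ0, hQc⟩ := (H.xc_eq hP₀ (c := c)).mpr (by rw [hxP₀]; exact hx₀)
  have hQne : α P₀ ≠ -(α P₀) := by
    intro h0
    apply hc3
    change W.Ψ₂Sq.eval c = 0
    generalize α P₀ = Q at hQ0 hQc h0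
    rcases Q with _ | ⟨x, y, h⟩
    · exact absurd rfl hQ0
    rw [xc_some] at hQc
    subst hQc
    have h1 := ev_sq h.1 2
    rw [Nat.cast_ofNat, ΨSq_two] at h1
    rw [← h1, ev_two]
    rw [Point.neg_some, Point.some.injEq] at h0
    have h3 := h0.2
    simp only [negY] at h3
    have : 2 * y + W.a₁ * x + W.a₃ = 0 := by linear_combination h3
    rw [this]; ring
  have e1 : {P : W.toAffine.Point // α P = 0} ≃ {P : W.toAffine.Point // α P = α P₀} :=
    { toFun := fun P => ⟨P.1 + P₀, by rw [map_add, P.2, zero_add]⟩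
      invFun := fun P => ⟨P.1 - P₀, by rw [map_sub, P.2, sub_self]⟩
      left_inv := fun P => by ext1; simp
      right_inv := fun P => by ext1; simp }
  rw [Nat.card_congr e1, ← hcard]
  have hn0 : ∀ R : W.toAffine.Point, α R = α P₀ → R ≠ 0 := by
    rintro R hR rfl
    rw [map_zero] at hR
    exact hQ0 hR.symm
  have hcc : ∀ P : {P : W.toAffine.Point // α P = α P₀}, xc P.1 ∈ fib.roots.toFinset := by
    rintro ⟨P, hP⟩
    rw [hroot]
    exact (H.xc_eq (hn0 P hP)).mp ⟨by rw [hP]; exact hQ0, by rw [hP, hQc]⟩
  have hbij : Function.Bijective (fun P : {P : W.toAffine.Point // α P = α P₀} =>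
      (⟨xc P.1, hcc P⟩ : {x // x ∈ fib.roots.toFinset})) := by
    constructor
    · rintro ⟨P, hP⟩ ⟨P', hP'⟩ heq
      simp only [Subtype.mk.injEq] at heq ⊢
      rcases eq_or_eq_neg_of_xc (hn0 P hP) (hn0 P' hP') heq with h | h
      · exact h
      · exfalso
        rw [h, map_neg, hP'] at hP
        exact hQne hP.symm
    · rintro ⟨x, hx⟩
      rw [hroot] at hx
      obtain ⟨y, hy⟩ := exists_point (W := W) x
      obtain ⟨h1, h2⟩ := (H.xc_eq (P := .some x y hy) (Point.some_ne_zero hy) (c := c)).mpr
        (by rw [xc_some]; exact hx)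
      rcases eq_or_eq_neg_of_xc h1 hQ0 (h2.trans hQc.symm) with h | h
      · exact ⟨⟨.some x y hy, h⟩, by simp [xc_some]⟩
      · refine ⟨⟨-.some x y hy, by rw [map_neg, h, neg_neg]⟩, ?_⟩
        simp [xc_some]
  rw [Nat.card_eq_of_bijective _ hbij, Nat.card_eq_fintype_card, Fintype.card_coe]

end XMap

end Fermat.Agent.EFrob
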