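import Mathlib

set_option autoImplicit false

/-!
# Functions satisfying the parallelogram law
-/

namespace Fermat.Agent.EFrob

variable {M : Type*} [AddCommGroup M] {d : M → ℤ}

/-- The parallelogram law. -/
def PLaw (d : M → ℤ) : Prop := ∀ u v, d (u + v) + d (u - v) = 2 * d u + 2 * d v

namespace PLaw

variable (h : PLaw d)
include h

lemma zero : d 0 = 0 := by
  have := h 0 0
  rw [add_zero, sub_zero] at this
  linarith

lemma neg (u : M) : d (-u) = d u := by
  have := h 0 u
  rw [zero_add, zero_sub, h.zero] at this
  linarith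

lemma triple (u v w : M) : d (u + v + w) = d (u + v) + d (u + w) + d (v + w) - d u - d v - d w := by
  have a := h (u + v) w
  have b := h (u - w) v
  have c := h u (w + v)
  have e := h u w
  have i1 : u - w + v = u + v - w := by abel
  have i2 : u - w - v = u - (w + v) := by abel
  have i3 : u + (w + v) = u + v + w := by abel
  have i4 : w + v = v + w := by abel
  rw [i1, i2] at b
  rw [i3] at c
  rw [i4] at b c
  linarith

/-- the associated bilinear form -/
def B : M →+ M →+ ℤ where
  toFun u :=
    { toFun := fun v => d (u + v) - d u - d v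
      map_zero' := by rw [add_zero, h.zero]; ring
      map_add' := fun v w => by
        have := h.triple u v w
        rw [add_assoc] at this
        linarith }
  map_zero' := by
    ext v
    simp [h.zero]
  map_add' u u' := by
    ext v
    have := h.triple u u' v
    simp only [AddMonoidHom.coe_mk, ZeroHom.coe_mk, AddMonoidHom.add_apply]
    linarith

lemma add (u v : M) : d (u + v) = d u + d v + h.B u v := by
  simp [B]

lemma B_comm (u v : M) : h.B u v = h.B v u := by
  simp only [B, AddMonoidHom.coe_mk, ZeroHom.coe_mk, add_comm u v]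
  ring

lemma B_self (u : M) : h.B u u = 2 * d u := by
  have := h u u
  rw [sub_self, h.zero, h.add] at this
  linarith

lemma zsmul (n : ℤ) (u : M) : d (n • u) = n ^ 2 * d u := by
  have h1 := h.B_self (n • u)
  rw [map_zsmul, map_zsmul, AddMonoidHom.zsmul_apply, h.B_self] at h1
  simp only [smul_eq_mul] at h1
  nlinarith [h1]

/-- The main computation. -/
theorem frobenius_relation {φ : M →+ M} {q : ℤ} (hq : ∀ u, d (φ u) = q * d u) {P : M}
    (hP : d P = 1) (hmul : d (φ (φ P) - P) = d (φ P - P) * d (φ P + P)) :
    d (φ (φ P) - (q + 1 - d (φ P - P)) • φ P + q • P) = 0 := by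
  set t := h.B (φ P) P with ht
  have hBφ : ∀ u v, h.B (φ u) (φ v) = q * h.B u v := by
    intro u v
    have h1 := h.add (φ u) (φ v)
    rw [← map_add, hq, hq, hq, h.add] at h1
    linarith
  have hsub : ∀ u v, d (u - v) = d u + d v - h.B u v := by
    intro u v
    rw [sub_eq_add_neg, h.add, h.neg, map_neg]
    ring
  have e1 : d (φ P - P) = q + 1 - t := by
    rw [hsub, hq, hP]; ring
  have e2 : d (φ P + P) = q + 1 + t := by
    rw [h.add, hq, hP]; ring
  have e3 : h.B (φ (φ P)) P = t ^ 2 - 2 * q := by
    rw [e1, e2, hsub, hq, hq, hP] at hmul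
    linarith
  have e4 : q + 1 - d (φ P - P) = t := by rw [e1]; ring
  rw [e4, h.add, hsub, h.zsmul, h.zsmul, hq, hq, hP, map_sub, AddMonoidHom.sub_apply, map_zsmul,
    map_zsmul, map_zsmul, map_zsmul, AddMonoidHom.zsmul_apply, hBφ, e3]
  simp only [smul_eq_mul]
  rw [← ht]
  ring

end PLaw

end Fermat.Agent.EFrob
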