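import Fermat.Agent.EFrob.Inf
import Fermat.Agent.EFrob.QForm

set_option autoImplicit false

/-!
# The Frobenius endomorphism satisfies `F² - a F + ℓ = 0`
-/

namespace Fermat.Agent.EFrob

open WeierstrassCurve WeierstrassCurve.Affine Polynomial
open Fermat.Agent.ECT
open Fermat.Agent.EC
open scoped Polynomial

section inE

variable {K : Type*} [Field K] {Γ₀ : Type*} [LinearOrderedCommGroupWithZero Γ₀]
  {v : Valuation K Γ₀} {W : WeierstrassCurve K}

lemma InE_neg (hW : VInt v W) {r : Γ₀} (hr : r < 1) {P : W.toAffine.Point} (hP : InE v r P) :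
    InE v r (-P) := by
  rcases P with _ | ⟨x, y, h⟩
  · exact hP
  · obtain ⟨h1, h2, h3⟩ := hP
    have hr31 : r ^ 3 ≤ r := by
      simpa using pow_le_pow_right_of_le_one' hr.le (show 1 ≤ 3 by norm_num)
    have h4 := (v_w_le hW h.1 h1 hr h2 h3).trans hr31
    obtain ⟨n1, n2, n3, -⟩ := neg_small hW hr h1 h2 h4 h3
    exact ⟨n1, n2, n3⟩

end inE

variable {k K : Type*} [Field k] [Field K] [Algebra k K] {W : WeierstrassCurve k}
  {x y : K} {τ : K →ₐ[k] K}

section rep

lemma Rep.neg {R : (W.map (algebraMap k K)).toAffine.Point} {f g : k[X]} (h : Rep x R f g) :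
    Rep x (-R) f g := by
  refine ⟨h.1, ?_⟩
  rw [xN_neg, xD_neg]
  exact h.2

lemma Rep.frob [DecidableEq K] {ℓ : ℕ} [Fact ℓ.Prime] [CharP k ℓ] [CharP K ℓ]
    (hK : (W.map (algebraMap k K)).map (frobenius K ℓ) = W.map (algebraMap k K))
    {R : (W.map (algebraMap k K)).toAffine.Point} {f g : k[X]} (h : Rep x R f g) :
    Rep x (frobP ℓ hK R) (f ^ ℓ) (g ^ ℓ) := by
  refine ⟨h.1.pow, ?_⟩
  rw [frobP, xN_pmap, xD_pmap, frobenius_def, frobenius_def, map_pow, map_pow, ← mul_pow, ← mul_pow,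
    h.2]

lemma rep_generic (hn : (W.map (algebraMap k K)).toAffine.Nonsingular x y) :
    Rep x (.some x y hn) X 1 := by
  refine ⟨isCoprime_one_right, ?_⟩
  rw [xN_some, xD_some, aeval_X, map_one, mul_one, one_mul]

lemma rep_zero : Rep x (0 : (W.map (algebraMap k K)).toAffine.Point) 1 0 := by
  refine ⟨isCoprime_one_left, ?_⟩
  rw [xN_zero, xD_zero, map_zero, zero_mul, mul_zero]

end rep

namespace FFData

variable (D : FFData k K W x y τ) [DecidableEq K] [hE : W.IsElliptic]
include D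

omit [DecidableEq K] in
lemma nonsing : (W.map (algebraMap k K)).toAffine.Nonsingular x y :=
  (equation_iff_nonsingular).mp D.eqn

omit D hE [DecidableEq K] in
lemma map_τ (τ : K →ₐ[k] K) :
    (W.map (algebraMap k K)).map (τ : K →+* K) = W.map (algebraMap k K) := by
  rw [WeierstrassCurve.map_map]
  congr 1
  exact τ.comp_algebraMap

omit D hE in
/-- The odd points of `E(k(E))`. -/
noncomputable def odd (W : WeierstrassCurve k) (τ : K →ₐ[k] K) :
    AddSubgroup (W.map (algebraMap k K)).toAffine.Point where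
  carrier := {R | pmap (τ : K →+* K) (map_τ τ) R = -R}
  add_mem' := by
    intro R S hR hS
    change pmap _ _ (R + S) = _
    rw [map_add, hR, hS, neg_add]
  zero_mem' := by
    change pmap _ _ 0 = _
    rw [_root_.map_zero, neg_zero]
  neg_mem' := by
    intro R hR
    change pmap _ _ (-R) = _
    rw [_root_.map_neg, hR]

omit D hE in
lemma mem_odd {R : (W.map (algebraMap k K)).toAffine.Point} :
    R ∈ odd W τ ↔ pmap (τ : K →+* K) (map_τ τ) R = -R := Iff.rfl

lemma generic_mem : (.some x y D.nonsing : (W.map (algebraMap k K)).toAffine.Point) ∈ odd W τ := by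
  rw [mem_odd, pmap_some, Point.neg_some, Point.some.injEq]
  exact ⟨D.τx, D.τy⟩

omit hE in
lemma exists_rep {R : (W.map (algebraMap k K)).toAffine.Point} (hR : R ∈ odd W τ) :
    ∃ f g : k[X], Rep x R f g := by
  rcases R with _ | ⟨X', Y', hn⟩
  · exact ⟨1, 0, rep_zero⟩
  · rw [mem_odd, pmap_some, Point.neg_some, Point.some.injEq] at hR
    obtain ⟨f, g, hg, hfg⟩ := D.fix X' hR.1
    classical
    have hgcd : EuclideanDomain.gcd f g ≠ 0 := by
      intro h0
      rw [EuclideanDomain.gcd_eq_zero_iff] at h0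
      exact hg h0.2
    obtain ⟨f', hf'⟩ := EuclideanDomain.gcd_dvd_left f g
    obtain ⟨g', hg'⟩ := EuclideanDomain.gcd_dvd_right f g
    have hbez := EuclideanDomain.gcd_eq_gcd_ab f g
    have hcop : IsCoprime f' g' := by
      refine ⟨EuclideanDomain.gcdA f g, EuclideanDomain.gcdB f g, ?_⟩
      apply mul_left_cancel₀ hgcd
      linear_combination (-1 : k[X]) * hbez - EuclideanDomain.gcdA f g * hf' -
        EuclideanDomain.gcdB f g * hg'
    have h2 : aeval x (EuclideanDomain.gcd f g) ≠ 0 := fun h0 => hgcd (D.inj _ h0)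
    refine ⟨f', g', hcop, ?_⟩
    rw [xN_some, xD_some, one_mul]
    apply mul_left_cancel₀ h2
    have e1 : aeval x f = aeval x (EuclideanDomain.gcd f g) * aeval x f' := by
      conv_lhs => rw [hf', map_mul]
    have e2 : aeval x g = aeval x (EuclideanDomain.gcd f g) * aeval x g' := by
      conv_lhs => rw [hg', map_mul]
    rw [e1, e2] at hfg
    linear_combination hfg


/-- The degree function on odd points. -/
noncomputable def deg (R : odd W τ) : ℤ :=
  (hh (D.exists_rep R.2).choose (D.exists_rep R.2).choose_spec.choose : ℕ)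

omit hE in
lemma deg_eq {R : odd W τ} {f g : k[X]} (h : Rep x R.1 f g) : D.deg R = (hh f g : ℕ) := by
  obtain ⟨h1, h2⟩ := h.hh_eq D.inj (D.exists_rep R.2).choose_spec.choose_spec
  rw [deg, hh, hh, h1, h2]

lemma plaw [IsAlgClosed k] : PLaw D.deg := by
  intro R S
  obtain ⟨f₁, g₁, h₁⟩ := D.exists_rep R.2
  obtain ⟨f₂, g₂, h₂⟩ := D.exists_rep S.2
  obtain ⟨f₃, g₃, h₃⟩ := D.exists_rep (R + S).2
  obtain ⟨f₄, g₄, h₄⟩ := D.exists_rep (R - S).2
  rw [D.deg_eq h₁, D.deg_eq h₂, D.deg_eq h₃, D.deg_eq h₄]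
  have := hh_parallelogram D.inj h₁ h₂ (f₃ := f₃) (g₃ := g₃) (f₄ := f₄) (g₄ := g₄) h₃ h₄
  push_cast [← this]
  have h2 : (hh f₃ g₃ : ℤ) + hh f₄ g₄ = 2 * (hh f₁ g₁ + hh f₂ g₂) := by exact_mod_cast this
  linarith

/-- the generic point as an odd point -/
noncomputable def gen : odd W τ := ⟨_, D.generic_mem⟩

lemma deg_gen : D.deg D.gen = 1 := by
  rw [D.deg_eq (R := D.gen) (rep_generic D.nonsing)]
  simp [hh]

variable {ℓ : ℕ} [hℓ : Fact ℓ.Prime] [CharP k ℓ] [CharP K ℓ]

omit D hE in
lemma frob_mem_odd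
    (hK : (W.map (algebraMap k K)).map (frobenius K ℓ) = W.map (algebraMap k K))
    {R : (W.map (algebraMap k K)).toAffine.Point} (hR : R ∈ odd W τ) : frobP ℓ hK R ∈ odd W τ := by
  rw [mem_odd] at hR ⊢
  rw [← frobP_comm ℓ (τ : K →+* K) (map_τ τ) hK hK, hR, map_neg]

omit D hE in
/-- Frobenius on odd points. -/
noncomputable def frobO (τ : K →ₐ[k] K)
    (hK : (W.map (algebraMap k K)).map (frobenius K ℓ) = W.map (algebraMap k K)) :
    odd W τ →+ odd W τ where
  toFun R := ⟨frobP ℓ hK R.1, frob_mem_odd hK R.2⟩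
  map_zero' := Subtype.ext (_root_.map_zero _)
  map_add' R S := Subtype.ext (_root_.map_add _ _ _)

omit hE in
lemma deg_frob
    (hK : (W.map (algebraMap k K)).map (frobenius K ℓ) = W.map (algebraMap k K))
    (R : odd W τ) : D.deg (frobO τ hK R) = ℓ * D.deg R := by
  obtain ⟨f, g, h⟩ := D.exists_rep R.2
  rw [D.deg_eq h, D.deg_eq (R := frobO τ hK R) (h.frob hK), hh, hh, natDegree_pow, natDegree_pow,
    Nat.mul_max_mul_left, Nat.cast_mul]


section count

variable [DecidableEq k] [IsAlgClosed k]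
  (hk : W.map (frobenius k ℓ) = W)
  (hK : (W.map (algebraMap k K)).map (frobenius K ℓ) = W.map (algebraMap k K))

include hk in
/-- the subgroup of points which are integral combinations of `P`, `φ P`, ... lie in every
neighbourhood of infinity containing `P`. -/
lemma card_ker_eq_deg {R S : odd W τ} {α : W.toAffine.Point →+ W.toAffine.Point}
    (hα : SpecRel x y R.1 α) {n : ℕ} (hn : (n : k) ≠ 0)
    (hR : R.1 = n • D.gen.1 + frobP ℓ hK S.1)
    (hS : ∀ (V : ValuationSubring K) (ρ : V.ValueGroup), VInt V.valuation (W.map (algebraMap k K)) →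
      ρ < 1 → InE V.valuation ρ D.gen.1 → InE V.valuation ρ S.1) :
    (Nat.card {T : W.toAffine.Point // α T = 0} : ℤ) = D.deg R ∧ Function.Surjective α := by
  obtain ⟨f, g, hfg⟩ := D.exists_rep R.2
  have hdeg := natDegree_of_separable hK D.inf D.nonsing hn hR hS hfg
  have hx := hα.xmap D.place hfg
  refine ⟨?_, hx.surjective (by omega)⟩
  rw [hx.card_ker hdeg, D.deg_eq hfg, hh, max_eq_left (by omega)]

/-- the endomorphism `F` on `E(k)` -/
local notation "F" => frobP ℓ hk

lemma spec_gen : SpecRel x y D.gen.1 (AddMonoidHom.id W.toAffine.Point) :=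
  specRel_generic D.nonsing

lemma spec_frob_gen : SpecRel x y (frobO τ hK D.gen).1 (frobP ℓ hk) := by
  have := D.spec_gen.frob hk hK
  rwa [AddMonoidHom.comp_id] at this

/-- `#ker (F - 1) = deg`, `#ker (F + n) = deg`. -/
lemma card_ker_add (n : ℕ) (hn : (n : k) ≠ 0) :
    (Nat.card {T : W.toAffine.Point // frobP ℓ hk T + n • T = 0} : ℤ) =
      D.deg (frobO τ hK D.gen + n • D.gen) ∧
    Function.Surjective (fun T : W.toAffine.Point => frobP ℓ hk T + n • T) := by
  have h1 : SpecRel x y (frobO τ hK D.gen + n • D.gen).1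
      (frobP ℓ hk + n • AddMonoidHom.id _) :=
    (D.spec_frob_gen hk hK).add (D.spec_gen.nsmul n)
  exact D.card_ker_eq_deg hk hK (S := D.gen) h1 hn (by
    change frobP ℓ hK D.gen.1 + n • D.gen.1 = _
    rw [add_comm]) (fun V ρ _ _ h => h)

lemma card_ker_sub_one :
    (Nat.card {T : W.toAffine.Point // frobP ℓ hk T - T = 0} : ℤ) =
      D.deg (frobO τ hK D.gen - D.gen) ∧
    Function.Surjective (fun T : W.toAffine.Point => frobP ℓ hk T - T) := by
  have h1 : SpecRel x y (D.gen - frobO τ hK D.gen).1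
      (AddMonoidHom.id _ - frobP ℓ hk) :=
    D.spec_gen.sub (D.spec_frob_gen hk hK)
  obtain ⟨h2, h3⟩ := D.card_ker_eq_deg hk hK (R := D.gen - frobO τ hK D.gen) (S := -D.gen) h1
    (n := 1) (by simp) (by
      change D.gen.1 - frobP ℓ hK D.gen.1 = 1 • D.gen.1 + frobP ℓ hK (-D.gen.1)
      rw [one_nsmul, _root_.map_neg, sub_eq_add_neg])
    (fun V ρ hW hρ h => InE_neg hW hρ h)
  have h4 : D.deg (frobO τ hK D.gen - D.gen) = D.deg (D.gen - frobO τ hK D.gen) := by
    rw [← D.plaw.neg, neg_sub]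
  refine ⟨?_, ?_⟩
  · rw [h4, ← h2]
    congr 1
    apply Nat.card_congr
    refine Equiv.subtypeEquivRight fun T => ?_
    change frobP ℓ hk T - T = 0 ↔ T - frobP ℓ hk T = 0
    rw [sub_eq_zero, sub_eq_zero]
    exact eq_comm
  · intro Q
    obtain ⟨T, hT⟩ := h3 (-Q)
    refine ⟨T, ?_⟩
    change T - frobP ℓ hk T = -Q at hT
    change frobP ℓ hk T - T = Q
    rw [← neg_sub, hT, neg_neg]

lemma card_ker_sq_sub_one :
    (Nat.card {T : W.toAffine.Point // frobP ℓ hk (frobP ℓ hk T) - T = 0} : ℤ) =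
      D.deg (frobO τ hK (frobO τ hK D.gen) - D.gen) := by
  have h1 : SpecRel x y (D.gen - frobO τ hK (frobO τ hK D.gen)).1
      (AddMonoidHom.id _ - (frobP ℓ hk).comp (frobP ℓ hk)) :=
    D.spec_gen.sub ((D.spec_frob_gen hk hK).frob hk hK)
  obtain ⟨h2, -⟩ := D.card_ker_eq_deg hk hK (R := D.gen - frobO τ hK (frobO τ hK D.gen))
    (S := -frobO τ hK D.gen) h1
    (n := 1) (by simp) (by
      change D.gen.1 - frobP ℓ hK (frobP ℓ hK D.gen.1) =
        1 • D.gen.1 + frobP ℓ hK (-(frobP ℓ hK D.gen.1))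
      rw [one_nsmul, _root_.map_neg, sub_eq_add_neg])
    (fun V ρ hW hρ h => InE_neg hW hρ ((inE_frob hK hρ h).1.mono
      (pow_le_of_le_one zero_le hρ.le two_ne_zero)))
  have h4 : D.deg (frobO τ hK (frobO τ hK D.gen) - D.gen) =
      D.deg (D.gen - frobO τ hK (frobO τ hK D.gen)) := by
    rw [← D.plaw.neg, neg_sub]
  rw [h4, ← h2]
  congr 1
  apply Nat.card_congr
  refine Equiv.subtypeEquivRight fun T => ?_
  change frobP ℓ hk (frobP ℓ hk T) - T = 0 ↔ T - frobP ℓ hk (frobP ℓ hk T) = 0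
  rw [sub_eq_zero, sub_eq_zero]
  exact eq_comm

omit D hE [CharP K ℓ] [DecidableEq K] [IsAlgClosed k] in
/-- cardinality of a preimage under a surjective homomorphism -/
lemma card_comp {G : Type*} [AddCommGroup G] (A B : G →+ G) (hB : Function.Surjective B) :
    Nat.card {T : G // A (B T) = 0} = Nat.card {T : G // A T = 0} * Nat.card {T : G // B T = 0} := by
  rw [← Nat.card_prod]
  obtain ⟨s, hs⟩ := hB.hasRightInverse
  apply Nat.card_congr
  exact
    { toFun := fun T => (⟨B T.1, T.2⟩, ⟨T.1 - s (B T.1), by rw [map_sub, hs, sub_self]⟩)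
      invFun := fun P => ⟨P.2.1 + s P.1.1, by rw [map_add, P.2.2, zero_add, hs, P.1.2]⟩
      left_inv := fun T => by simp
      right_inv := fun P => by
        have h1 : B (P.2.1 + s P.1.1) = P.1.1 := by rw [map_add, P.2.2, zero_add, hs]
        ext1
        · apply Subtype.ext
          exact h1
        · apply Subtype.ext
          change P.2.1 + s P.1.1 - s (B (P.2.1 + s P.1.1)) = P.2.1
          rw [h1, add_sub_cancel_right] }

include hk in
lemma deg_mul : D.deg (frobO τ hK (frobO τ hK D.gen) - D.gen) =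
    D.deg (frobO τ hK D.gen - D.gen) * D.deg (frobO τ hK D.gen + D.gen) := by
  obtain ⟨h1, h1'⟩ := D.card_ker_sub_one hk hK
  obtain ⟨h2, h2'⟩ := D.card_ker_add hk hK 1 (by simp)
  have h3 := D.card_ker_sq_sub_one hk hK
  rw [one_nsmul] at h2
  rw [← h1, ← h2, ← h3]
  have h4 := card_comp (frobP ℓ hk - AddMonoidHom.id W.toAffine.Point)
    (frobP ℓ hk + 1 • AddMonoidHom.id W.toAffine.Point) h2'
  have e1 : Nat.card {T : W.toAffine.Point // frobP ℓ hk (frobP ℓ hk T) - T = 0} =
      Nat.card {T : W.toAffine.Point // (frobP ℓ hk - AddMonoidHom.id W.toAffine.Point)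
        ((frobP ℓ hk + 1 • AddMonoidHom.id W.toAffine.Point) T) = 0} := by
    apply Nat.card_congr
    refine Equiv.subtypeEquivRight fun T => ?_
    have : (frobP ℓ hk - AddMonoidHom.id W.toAffine.Point)
        ((frobP ℓ hk + 1 • AddMonoidHom.id W.toAffine.Point) T) =
        frobP ℓ hk (frobP ℓ hk T) - T := by
      simp only [AddMonoidHom.sub_apply, AddMonoidHom.add_apply, AddMonoidHom.id_apply, one_nsmul,
        map_add]
      abel
    rw [this]
  rw [e1, h4, Nat.cast_mul]
  rfl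

/-- the trace of Frobenius -/
noncomputable def aℓ {W : WeierstrassCurve k} (hk : W.map (frobenius k ℓ) = W) : ℤ :=
  ℓ + 1 - (Nat.card {T : W.toAffine.Point // frobP ℓ hk T - T = 0} : ℤ)

lemma deg_relation : D.deg (frobO τ hK (frobO τ hK D.gen) -
    aℓ hk • frobO τ hK D.gen + (ℓ : ℤ) • D.gen) = 0 := by
  have h := D.plaw.frobenius_relation (φ := frobO τ hK) (q := ℓ) (P := D.gen)
    (D.deg_frob hK) D.deg_gen (D.deg_mul hk hK)
  rw [← (D.card_ker_sub_one hk hK).1] at h
  exact h

include D hK in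
/-- **The characteristic equation of Frobenius.** -/
theorem frob_relation (T : W.toAffine.Point) :
    frobP ℓ hk (frobP ℓ hk T) - aℓ hk • frobP ℓ hk T + (ℓ : ℤ) • T = 0 := by
  have h0 := D.deg_relation hk hK
  set R : odd W τ := frobO τ hK (frobO τ hK D.gen) -
    aℓ hk • frobO τ hK D.gen + (ℓ : ℤ) • D.gen with hR
  set β : W.toAffine.Point →+ W.toAffine.Point := (frobP ℓ hk).comp (frobP ℓ hk) -
    aℓ hk • frobP ℓ hk + (ℓ : ℤ) • AddMonoidHom.id _ with hβ
  have hs : SpecRel x y R.1 β :=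
    (((D.spec_frob_gen hk hK).frob hk hK).sub ((D.spec_frob_gen hk hK).zsmul _)).add
      (D.spec_gen.zsmul _)
  obtain ⟨f, g, hfg⟩ := D.exists_rep R.2
  rw [D.deg_eq hfg] at h0
  have hhh : hh f g = 0 := by exact_mod_cast h0
  have hX := hs.xmap D.place hfg
  have hf : f.natDegree = 0 := Nat.le_zero.mp (hhh ▸ le_hh_left f g)
  have hg : g.natDegree = 0 := Nat.le_zero.mp (hhh ▸ le_hh_right f g)
  obtain ⟨c, hc⟩ := natDegree_eq_zero.mp hf
  obtain ⟨e, he⟩ := natDegree_eq_zero.mp hg
  change β T = 0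
  by_cases hT : T = 0
  · rw [hT, map_zero]
  by_cases he0 : e = 0
  · rw [hX.eq_zero_iff hT, ← he, he0, C_0, eval_zero]
  · exfalso
    have hinf : Infinite W.toAffine.Point := infinite_point
    have hinj : Function.Injective β := by
      rw [injective_iff_map_eq_zero]
      intro P hP
      by_contra hP0
      have := (hX.eq_zero_iff hP0).mp hP
      rw [← he, eval_C] at this
      exact he0 this
    have hfin : (Set.range β).Finite := by
      refine Set.Finite.subset ((finite_fiber (W := W) (c / e)).union (Set.finite_singleton 0)) ?_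
      rintro _ ⟨P, rfl⟩
      by_cases hP : P = 0
      · right
        rw [hP, map_zero]
        rfl
      · left
        have := (hX.xc_eq hP (c := c / e)).mpr (by
          rw [← hc, ← he, eval_C, eval_C, div_mul_cancel₀ _ he0])
        exact this.2
    exact Set.infinite_range_of_injective hinj hfin

include D hK in
/-- The number of points killed by `F + n`. -/
theorem card_ker_frob_add (n : ℕ) (hn : (n : k) ≠ 0) :
    (Nat.card {T : W.toAffine.Point // frobP ℓ hk T + n • T = 0} : ℤ) =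
      n ^ 2 + aℓ hk * n + ℓ := by
  rw [(D.card_ker_add hk hK n hn).1, D.plaw.add, D.deg_frob hK, D.deg_gen]
  have h1 : D.deg (n • D.gen) = n ^ 2 := by
    have := D.plaw.zsmul n D.gen
    rw [D.deg_gen, mul_one, natCast_zsmul] at this
    exact this
  have h2 : D.plaw.B (frobO τ hK D.gen) D.gen = aℓ hk := by
    have h3 := (D.card_ker_sub_one hk hK).1
    rw [sub_eq_add_neg, D.plaw.add, D.plaw.neg, D.deg_frob hK, D.deg_gen, map_neg] at h3
    rw [aℓ, h3]
    ring
  rw [h1, map_nsmul, h2]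
  simp only [nsmul_eq_mul]
  ring

end count

end FFData

end Fermat.Agent.EFrob
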