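import Fermat.Agent.EFrob.Place
import Fermat.Agent.ECT.AllPoints

set_option autoImplicit false

/-!
# Maps on points induced by ring homomorphisms
-/

namespace Fermat.Agent.EFrob

open WeierstrassCurve WeierstrassCurve.Affine
open Fermat.Agent.EC (xc xc_some InKer inKer_some inKer_zero)
open Fermat.Agent.ECT (xN xD)

variable {K L M : Type*} [Field K] [Field L] [Field M]

lemma pnonsing {W : WeierstrassCurve K} {W' : WeierstrassCurve L} {σ : K →+* L}
    (h : W.map σ = W') {x y : K} (hn : W.toAffine.Nonsingular x y) :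
    W'.toAffine.Nonsingular (σ x) (σ y) := by
  subst h
  exact (W.toAffine.map_nonsingular σ.injective x y).mpr hn

section

variable [DecidableEq K] [DecidableEq L] [DecidableEq M]

/-- The homomorphism on points induced by a ring homomorphism. -/
noncomputable def pmap (σ : K →+* L) {W : WeierstrassCurve K} {W' : WeierstrassCurve L}
    (h : W.map σ = W') : W.toAffine.Point →+ W'.toAffine.Point :=
  letI := σ.toAlgebra
  h ▸ (Point.map (R := K) (S := K) (F := K) (K := L) (W' := W.toAffine) (Algebra.ofId K L) :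
    W.toAffine.Point →+ (W.map σ).toAffine.Point)

lemma pmap_some (σ : K →+* L) {W : WeierstrassCurve K} {W' : WeierstrassCurve L}
    (h : W.map σ = W') {x y : K} (hn : W.toAffine.Nonsingular x y) :
    pmap σ h (.some x y hn) = .some (σ x) (σ y) (pnonsing h hn) := by
  subst h
  rfl

lemma xN_pmap (σ : K →+* L) {W : WeierstrassCurve K} {W' : WeierstrassCurve L}
    (h : W.map σ = W') (P : W.toAffine.Point) : xN (pmap σ h P) = σ (xN P) := by
  rcases P with _ | ⟨x, y, hn⟩
  · change xN (pmap σ h 0) = σ (xN 0)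
    rw [map_zero, ECT.xN_zero, ECT.xN_zero, map_one]
  · rw [pmap_some, ECT.xN_some, ECT.xN_some]

lemma xD_pmap (σ : K →+* L) {W : WeierstrassCurve K} {W' : WeierstrassCurve L}
    (h : W.map σ = W') (P : W.toAffine.Point) : xD (pmap σ h P) = σ (xD P) := by
  rcases P with _ | ⟨x, y, hn⟩
  · change xD (pmap σ h 0) = σ (xD 0)
    rw [map_zero, ECT.xD_zero, ECT.xD_zero, map_zero]
  · rw [pmap_some, ECT.xD_some, ECT.xD_some, map_one]

lemma pmap_injective (σ : K →+* L) {W : WeierstrassCurve K} {W' : WeierstrassCurve L}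
    (h : W.map σ = W') : Function.Injective (pmap σ h) := by
  rw [injective_iff_map_eq_zero]
  intro P hP
  rcases P with _ | ⟨x, y, hn⟩
  · rfl
  · rw [pmap_some] at hP
    exact absurd hP (Point.some_ne_zero _)

/-- commuting squares. -/
lemma pmap_comm {N : Type*} [Field N] [DecidableEq N] {σ : K →+* L} {τ : L →+* N} {σ' : K →+* M}
    {τ' : M →+* N} (hcomm : ∀ z, τ (σ z) = τ' (σ' z))
    {W : WeierstrassCurve K} {W₁ : WeierstrassCurve L} {W₂ : WeierstrassCurve M}
    {W₃ : WeierstrassCurve N} (h₁ : W.map σ = W₁) (h₂ : W₁.map τ = W₃) (h₁' : W.map σ' = W₂)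
    (h₂' : W₂.map τ' = W₃) (P : W.toAffine.Point) :
    pmap τ h₂ (pmap σ h₁ P) = pmap τ' h₂' (pmap σ' h₁' P) := by
  rcases P with _ | ⟨x, y, hn⟩
  · change pmap τ h₂ (pmap σ h₁ 0) = pmap τ' h₂' (pmap σ' h₁' 0)
    simp only [map_zero]
  · simp only [pmap_some, Point.some.injEq]
    exact ⟨hcomm x, hcomm y⟩

end

section frob

variable (ℓ : ℕ) [hℓ : Fact ℓ.Prime]

/-- The Frobenius endomorphism on points. -/
noncomputable def frobP [DecidableEq K] [CharP K ℓ] {W : WeierstrassCurve K}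
    (h : W.map (frobenius K ℓ) = W) : W.toAffine.Point →+ W.toAffine.Point :=
  pmap (frobenius K ℓ) h

lemma frobP_some [DecidableEq K] [CharP K ℓ] {W : WeierstrassCurve K}
    (h : W.map (frobenius K ℓ) = W) {x y : K} (hn : W.toAffine.Nonsingular x y) :
    ∃ h', frobP ℓ h (.some x y hn) = .some (x ^ ℓ) (y ^ ℓ) h' :=
  ⟨_, pmap_some _ h hn⟩

lemma frob_map [CharP K ℓ] [CharP L ℓ] {W : WeierstrassCurve K} (σ : K →+* L)
    (h : W.map (frobenius K ℓ) = W) : (W.map σ).map (frobenius L ℓ) = W.map σ := by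
  rw [WeierstrassCurve.map_map]
  conv_rhs => rw [← h, WeierstrassCurve.map_map]
  congr 1
  ext z
  simp [frobenius_def]

lemma frobP_comm [DecidableEq K] [DecidableEq L] [CharP K ℓ] [CharP L ℓ] {W : WeierstrassCurve K}
    {W' : WeierstrassCurve L} (σ : K →+* L) (hσ : W.map σ = W')
    (h : W.map (frobenius K ℓ) = W) (h' : W'.map (frobenius L ℓ) = W') (P : W.toAffine.Point) :
    frobP ℓ h' (pmap σ hσ P) = pmap σ hσ (frobP ℓ h P) :=
  pmap_comm (fun z => by simp [frobenius_def]) _ _ _ _ _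

/-- Reduction commutes with Frobenius. -/
lemma PtRd.frob [DecidableEq K] [DecidableEq L] [CharP K ℓ] [CharP L ℓ] {A : ValuationSubring K}
    {r : A →+* L} {W : WeierstrassCurve K} {W' : WeierstrassCurve L}
    (h : W.map (frobenius K ℓ) = W) (h' : W'.map (frobenius L ℓ) = W')
    {P : W.toAffine.Point} {Q : W'.toAffine.Point} (hPQ : PtRd r P Q) :
    PtRd r (frobP ℓ h P) (frobP ℓ h' Q) := by
  rcases hPQ with ⟨h1, rfl⟩ | ⟨x, y, h1, x', y', h2, rfl, rfl, hx, hy⟩
  · rw [map_zero]
    apply ptRd_of_inKer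
    rcases P with _ | ⟨x, y, hn⟩
    · change InKer _ (frobP ℓ h 0)
      rw [map_zero]
      exact inKer_zero
    · obtain ⟨h3, h4⟩ := frobP_some ℓ h hn
      rw [h4, inKer_some, map_pow]
      exact one_lt_pow₀ (inKer_some.mp h1) hℓ.out.ne_zero
  · obtain ⟨h3, h4⟩ := frobP_some ℓ h h1
    obtain ⟨h5, h6⟩ := frobP_some ℓ h' h2
    rw [h4, h6]
    exact ptRd_some (hx.pow ℓ) (hy.pow ℓ)

end frob

end Fermat.Agent.EFrob
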