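import Fermat.Agent.EC.Kernel

set_option autoImplicit false

/-!
# Reduction of points on an elliptic curve with good reduction, as a homomorphism
-/

namespace Fermat.Agent.EFrob

open WeierstrassCurve WeierstrassCurve.Affine
open Fermat.Agent.EC

variable {K k : Type*} [Field K] [Field k] {A : ValuationSubring K}

/-- `z` lies in `A` and reduces to `z'`. -/
def Rd (r : A →+* k) (z : K) (z' : k) : Prop := ∃ a : A, (a : K) = z ∧ r a = z'

section basic

variable {r : A →+* k} {z w : K} {z' w' : k}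

lemma Rd.mk' (a : A) : Rd r (a : K) (r a) := ⟨a, rfl, rfl⟩

lemma Rd.add (h : Rd r z z') (h' : Rd r w w') : Rd r (z + w) (z' + w') := by
  obtain ⟨a, rfl, rfl⟩ := h
  obtain ⟨b, rfl, rfl⟩ := h'
  exact ⟨a + b, rfl, map_add r a b⟩

lemma Rd.mul (h : Rd r z z') (h' : Rd r w w') : Rd r (z * w) (z' * w') := by
  obtain ⟨a, rfl, rfl⟩ := h
  obtain ⟨b, rfl, rfl⟩ := h'
  exact ⟨a * b, rfl, map_mul r a b⟩

lemma Rd.neg (h : Rd r z z') : Rd r (-z) (-z') := by
  obtain ⟨a, rfl, rfl⟩ := h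
  exact ⟨-a, rfl, map_neg r a⟩

lemma Rd.sub (h : Rd r z z') (h' : Rd r w w') : Rd r (z - w) (z' - w') := by
  rw [sub_eq_add_neg, sub_eq_add_neg]
  exact h.add h'.neg

lemma Rd.one : Rd r 1 1 := ⟨1, rfl, map_one r⟩

lemma Rd.zero : Rd r 0 0 := ⟨0, rfl, map_zero r⟩

lemma Rd.pow (h : Rd r z z') (n : ℕ) : Rd r (z ^ n) (z' ^ n) := by
  obtain ⟨a, rfl, rfl⟩ := h
  exact ⟨a ^ n, rfl, map_pow r a n⟩

lemma Rd.natCast (n : ℕ) : Rd r (n : K) (n : k) := ⟨n, by simp, by simp⟩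

lemma Rd.ofNat (n : ℕ) [n.AtLeastTwo] : Rd r (OfNat.ofNat n : K) (OfNat.ofNat n : k) := by
  have := Rd.natCast (r := r) (OfNat.ofNat n)
  rwa [Nat.cast_ofNat, Nat.cast_ofNat] at this

lemma Rd.uniq (h : Rd r z z') (h' : Rd r z w') : z' = w' := by
  obtain ⟨a, ha, rfl⟩ := h
  obtain ⟨b, hb, rfl⟩ := h'
  have : a = b := Subtype.ext (ha.trans hb.symm)
  rw [this]

lemma Rd.mem (h : Rd r z z') : z ∈ A := by
  obtain ⟨a, rfl, -⟩ := h
  exact a.2

lemma Rd.le (h : Rd r z z') : A.valuation z ≤ 1 := (A.valuation_le_one_iff z).mpr h.mem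

lemma exists_rd (h : A.valuation z ≤ 1) : ∃ z', Rd r z z' :=
  ⟨r ⟨z, (A.valuation_le_one_iff z).mp h⟩, ⟨z, (A.valuation_le_one_iff z).mp h⟩, rfl, rfl⟩

variable [hr : IsLocalHom r]

lemma Rd.lt_iff (h : Rd r z z') : A.valuation z < 1 ↔ z' = 0 := by
  obtain ⟨a, rfl, rfl⟩ := h
  rw [← A.valuation_lt_one_iff a, IsLocalRing.mem_maximalIdeal, mem_nonunits_iff]
  constructor
  · intro ha
    by_contra h0
    have : IsUnit (r a) := isUnit_iff_ne_zero.mpr h0
    exact ha (isUnit_of_map_unit r a this)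
  · intro h0 hu
    have := hu.map r
    rw [h0] at this
    exact not_isUnit_zero this

lemma Rd.eq_one_iff (h : Rd r z z') : A.valuation z = 1 ↔ z' ≠ 0 := by
  rw [ne_eq, ← h.lt_iff]
  constructor
  · intro h1 h2
    rw [h1] at h2
    exact lt_irrefl _ h2
  · intro h1
    exact le_antisymm h.le (not_lt.mp h1)

lemma Rd.inv (h : Rd r z z') (h0 : z' ≠ 0) : Rd r z⁻¹ z'⁻¹ := by
  have h1 := h.eq_one_iff.mpr h0
  have hz0 : z ≠ 0 := by
    rintro rfl
    rw [map_zero] at h1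
    exact zero_ne_one h1
  have h2 : A.valuation z⁻¹ ≤ 1 := by rw [map_inv₀, h1, inv_one]
  obtain ⟨w', hw⟩ := exists_rd (r := r) h2
  have h3 := h.mul hw
  rw [mul_inv_cancel₀ hz0] at h3
  have h4 := h3.uniq Rd.one
  have : w' = z'⁻¹ := by
    field_simp
    linear_combination h4
  rwa [← this]

lemma Rd.div (h : Rd r z z') (h' : Rd r w w') (h0 : w' ≠ 0) : Rd r (z / w) (z' / w') := by
  rw [div_eq_mul_inv, div_eq_mul_inv]
  exact h.mul (h'.inv h0)

end basic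

/-- The coefficients of `W` reduce to those of `W'`. -/
structure CurveRd (r : A →+* k) (W : WeierstrassCurve K) (W' : WeierstrassCurve k) : Prop where
  a₁ : Rd r W.a₁ W'.a₁
  a₂ : Rd r W.a₂ W'.a₂
  a₃ : Rd r W.a₃ W'.a₃
  a₄ : Rd r W.a₄ W'.a₄
  a₆ : Rd r W.a₆ W'.a₆

/-- A point reduces to a point. -/
def PtRd (r : A →+* k) {W : WeierstrassCurve K} {W' : WeierstrassCurve k}
    (P : W.toAffine.Point) (Q : W'.toAffine.Point) : Prop :=
  (InKer A.valuation P ∧ Q = 0) ∨ ∃ x y h x' y' h', P = .some x y h ∧ Q = .some x' y' h' ∧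
    Rd r x x' ∧ Rd r y y'

variable {r : A →+* k} {W : WeierstrassCurve K} {W' : WeierstrassCurve k}

namespace CurveRd

variable (H : CurveRd r W W')
include H

lemma vint : VInt A.valuation W where
  a₁ := H.a₁.le
  a₂ := H.a₂.le
  a₃ := H.a₃.le
  a₄ := H.a₄.le
  a₆ := H.a₆.le

lemma b₂ : Rd r W.b₂ W'.b₂ := by
  simp only [WeierstrassCurve.b₂]
  exact (H.a₁.pow 2).add ((Rd.ofNat 4).mul H.a₂)

lemma b₄ : Rd r W.b₄ W'.b₄ := by
  simp only [WeierstrassCurve.b₄]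
  exact ((Rd.ofNat 2).mul H.a₄).add (H.a₁.mul H.a₃)

lemma b₆ : Rd r W.b₆ W'.b₆ := by
  simp only [WeierstrassCurve.b₆]
  exact (H.a₃.pow 2).add ((Rd.ofNat 4).mul H.a₆)

lemma b₈ : Rd r W.b₈ W'.b₈ := by
  simp only [WeierstrassCurve.b₈]
  exact ((((H.a₁.pow 2).mul H.a₆).add (((Rd.ofNat 4).mul H.a₂).mul H.a₆)).sub
    ((H.a₁.mul H.a₃).mul H.a₄)).add (H.a₂.mul (H.a₃.pow 2)) |>.sub (H.a₄.pow 2)

lemma Δ : Rd r W.Δ W'.Δ := by
  simp only [WeierstrassCurve.Δ]
  exact (((((H.b₂.pow 2).neg.mul H.b₈).sub ((Rd.ofNat 8).mul (H.b₄.pow 3))).sub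
    ((Rd.ofNat 27).mul (H.b₆.pow 2))).add ((((Rd.ofNat 9).mul H.b₂).mul H.b₄).mul H.b₆))

lemma negY {x y : K} {x' y' : k} (hx : Rd r x x') (hy : Rd r y y') :
    Rd r (W.toAffine.negY x y) (W'.toAffine.negY x' y') := by
  simp only [Affine.negY]
  exact (hy.neg.sub (H.a₁.mul hx)).sub H.a₃

lemma addX {x₁ x₂ l : K} {x₁' x₂' l' : k} (h₁ : Rd r x₁ x₁') (h₂ : Rd r x₂ x₂') (hl : Rd r l l') :
    Rd r (W.toAffine.addX x₁ x₂ l) (W'.toAffine.addX x₁' x₂' l') := by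
  simp only [Affine.addX]
  exact ((((hl.pow 2).add (H.a₁.mul hl)).sub H.a₂).sub h₁).sub h₂

lemma addY {x₁ x₂ y₁ l : K} {x₁' x₂' y₁' l' : k} (h₁ : Rd r x₁ x₁') (h₂ : Rd r x₂ x₂')
    (hy : Rd r y₁ y₁') (hl : Rd r l l') :
    Rd r (W.toAffine.addY x₁ x₂ y₁ l) (W'.toAffine.addY x₁' x₂' y₁' l') := by
  simp only [Affine.addY, Affine.negAddY]
  exact H.negY (H.addX h₁ h₂ hl) ((hl.mul ((H.addX h₁ h₂ hl).sub h₁)).add hy)

variable [hr : IsLocalHom r]

/-- the slope of the chord reduces to the slope of the reduced chord. -/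
lemma slope {x₁ x₂ y₁ y₂ : K} {x₁' x₂' y₁' y₂' : k} [DecidableEq K] [DecidableEq k]
    (e₁ : W.toAffine.Equation x₁ y₁)
    (e₂ : W.toAffine.Equation x₂ y₂) (h₁ : Rd r x₁ x₁') (h₂ : Rd r x₂ x₂') (hy₁ : Rd r y₁ y₁')
    (hy₂ : Rd r y₂ y₂') (e₁' : W'.toAffine.Equation x₁' y₁') (e₂' : W'.toAffine.Equation x₂' y₂')
    (hne : ¬ (x₁' = x₂' ∧ y₁' = W'.toAffine.negY x₂' y₂')) :
    Rd r (W.toAffine.slope x₁ x₂ y₁ y₂) (W'.toAffine.slope x₁' x₂' y₁' y₂') := by
  by_cases hxx : x₁' = x₂'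
  · have hyn : y₁' ≠ W'.toAffine.negY x₂' y₂' := fun h => hne ⟨hxx, h⟩
    have hyy : y₁' = y₂' := Y_eq_of_Y_ne e₁' e₂' hxx hyn
    rw [slope_of_Y_ne hxx hyn]
    have hden := hy₁.sub (H.negY h₂ hy₂)
    have hden0 : y₁' - W'.toAffine.negY x₂' y₂' ≠ 0 := sub_ne_zero.mpr hyn
    have hden1 : y₁ - W.toAffine.negY x₂ y₂ ≠ 0 := by
      intro h0
      rw [h0] at hden
      exact hden0 (hden.uniq Rd.zero)
    have key : W.toAffine.slope x₁ x₂ y₁ y₂ * (y₁ - W.toAffine.negY x₂ y₂) =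
        x₁ ^ 2 + x₁ * x₂ + x₂ ^ 2 + W.a₂ * (x₁ + x₂) + W.a₄ - W.a₁ * y₁ := by
      have heq := (equation_iff _ _).mp e₁
      have heq' := (equation_iff _ _).mp e₂
      by_cases hx : x₁ = x₂
      · have hy : y₁ ≠ W.toAffine.negY x₂ y₂ := sub_ne_zero.mp hden1
        have hyy' : y₁ = y₂ := Y_eq_of_Y_ne e₁ e₂ hx hy
        rw [slope_of_Y_ne hx hy]
        subst hx hyy'
        rw [div_mul_cancel₀ _ hden1]
        ring
      · rw [slope_of_X_ne hx, div_mul_eq_mul_div, div_eq_iff (sub_ne_zero.mpr hx)]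
        simp only [Affine.negY]
        linear_combination heq - heq'
    have key2 := eq_div_of_mul_eq hden1 key
    rw [key2]
    have hnum : Rd r (x₁ ^ 2 + x₁ * x₂ + x₂ ^ 2 + W.a₂ * (x₁ + x₂) + W.a₄ - W.a₁ * y₁)
        (x₁' ^ 2 + x₁' * x₂' + x₂' ^ 2 + W'.a₂ * (x₁' + x₂') + W'.a₄ - W'.a₁ * y₁') :=
      ((((((h₁.pow 2).add (h₁.mul h₂)).add (h₂.pow 2)).add (H.a₂.mul (h₁.add h₂))).add
        H.a₄).sub (H.a₁.mul hy₁))
    have hfin := hnum.div hden hden0
    convert hfin using 1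
    subst hxx hyy
    congr 1
    ring
  · have hx : x₁ ≠ x₂ := by
      rintro rfl
      exact hxx (h₁.uniq h₂)
    rw [slope_of_X_ne hx, slope_of_X_ne hxx]
    exact (hy₁.sub hy₂).div (h₁.sub h₂) (sub_ne_zero.mpr hxx)

end CurveRd

lemma ptRd_zero : PtRd r (0 : W.toAffine.Point) (0 : W'.toAffine.Point) := Or.inl ⟨inKer_zero, rfl⟩

lemma ptRd_of_inKer {P : W.toAffine.Point} (hP : InKer A.valuation P) :
    PtRd r P (0 : W'.toAffine.Point) := Or.inl ⟨hP, rfl⟩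

lemma ptRd_some {x y : K} {h : W.toAffine.Nonsingular x y} {x' y' : k}
    {h' : W'.toAffine.Nonsingular x' y'} (hx : Rd r x x') (hy : Rd r y y') :
    PtRd r (.some x y h : W.toAffine.Point) (.some x' y' h' : W'.toAffine.Point) :=
  Or.inr ⟨x, y, h, x', y', h', rfl, rfl, hx, hy⟩

lemma PtRd.uniq {P : W.toAffine.Point} {Q Q' : W'.toAffine.Point} (h : PtRd r P Q)
    (h' : PtRd r P Q') : Q = Q' := by
  rcases h with ⟨h1, rfl⟩ | ⟨x, y, h1, x', y', h2, rfl, rfl, hx, hy⟩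
  · rcases h' with ⟨-, rfl⟩ | ⟨a, b, h3, a', b', h4, rfl, rfl, ha, hb⟩
    · rfl
    · exact absurd (inKer_some.mp h1) (not_lt.mpr ha.le)
  · rcases h' with ⟨h3, rfl⟩ | ⟨a, b, h3, a', b', h4, heq, rfl, ha, hb⟩
    · exact absurd (inKer_some.mp h3) (not_lt.mpr hx.le)
    · rw [Point.some.injEq] at heq
      obtain ⟨rfl, rfl⟩ := heq
      obtain rfl := hx.uniq ha
      obtain rfl := hy.uniq hb
      rfl

lemma PtRd.inKer_iff {P : W.toAffine.Point} {Q : W'.toAffine.Point} (h : PtRd r P Q) :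
    InKer A.valuation P ↔ Q = 0 := by
  constructor
  · intro h1
    exact h.uniq (ptRd_of_inKer h1)
  · rintro rfl
    rcases h with ⟨h1, -⟩ | ⟨x, y, h1, x', y', h2, rfl, h3, hx, hy⟩
    · exact h1
    · exact absurd h3.symm (Point.some_ne_zero h2)

lemma PtRd.neg (H : CurveRd r W W') {P : W.toAffine.Point} {Q : W'.toAffine.Point}
    (h : PtRd r P Q) : PtRd r (-P) (-Q) := by
  rcases h with ⟨h1, rfl⟩ | ⟨x, y, h1, x', y', h2, rfl, rfl, hx, hy⟩
  · exact ptRd_of_inKer (inKer_neg h1)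
  · rw [Point.neg_some, Point.neg_some]
    exact ptRd_some hx (H.negY hx hy)

lemma exists_ptRd (H : CurveRd r W W') [hE : W'.IsElliptic] (P : W.toAffine.Point) :
    ∃ Q : W'.toAffine.Point, PtRd r P Q := by
  rcases P with _ | ⟨x, y, h⟩
  · exact ⟨0, ptRd_zero⟩
  by_cases hx : A.valuation x ≤ 1
  · have hy := y_integral H.vint h.1 hx
    obtain ⟨x', hx'⟩ := exists_rd (r := r) hx
    obtain ⟨y', hy'⟩ := exists_rd (r := r) hy
    have heq : W'.toAffine.Equation x' y' := by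
      rw [equation_iff]
      have h1 := (equation_iff _ _).mp h.1
      have hl : Rd r (y ^ 2 + W.a₁ * x * y + W.a₃ * y)
          (y' ^ 2 + W'.a₁ * x' * y' + W'.a₃ * y') :=
        ((hy'.pow 2).add ((H.a₁.mul hx').mul hy')).add (H.a₃.mul hy')
      have hrr : Rd r (x ^ 3 + W.a₂ * x ^ 2 + W.a₄ * x + W.a₆)
          (x' ^ 3 + W'.a₂ * x' ^ 2 + W'.a₄ * x' + W'.a₆) :=
        (((hx'.pow 3).add (H.a₂.mul (hx'.pow 2))).add (H.a₄.mul hx')).add H.a₆
      rw [h1] at hl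
      exact hl.uniq hrr
    have hns : W'.toAffine.Nonsingular x' y' := (equation_iff_nonsingular).mp heq
    exact ⟨.some x' y' hns, ptRd_some hx' hy'⟩
  · rw [not_le] at hx
    exact ⟨0, ptRd_of_inKer (inKer_some.mpr hx)⟩

section add

variable [DecidableEq K] [DecidableEq k] [hr : IsLocalHom r] [hE : W'.IsElliptic]

omit [DecidableEq k] in
/-- Two integral points with the same reduction differ by a point in the kernel. -/
lemma sub_inKer_of_ptRd (H : CurveRd r W W') {P P' : W.toAffine.Point} {Q : W'.toAffine.Point}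
    (h : PtRd r P Q) (h' : PtRd r P' Q) : InKer A.valuation (P - P') := by
  rcases h with ⟨h1, rfl⟩ | ⟨x, y, h1, x', y', h2, rfl, rfl, hx, hy⟩
  · exact inKer_sub H.vint h1 (h'.inKer_iff.mpr rfl)
  · rcases h' with ⟨-, h3⟩ | ⟨a, b, h3, a', b', h4, rfl, heq, ha, hb⟩
    · exact absurd h3 (Point.some_ne_zero h2)
    · rw [Point.some.injEq] at heq
      obtain ⟨rfl, rfl⟩ := heq
      have hns : A.valuation (2 * b + W.a₁ * a + W.a₃) = 1 ∨
          A.valuation (3 * a ^ 2 + 2 * W.a₂ * a + W.a₄ - W.a₁ * b) = 1 := by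
        apply nonsing_of_unit_disc H.vint ?_ h3.1 ha.le
        rw [H.Δ.eq_one_iff]
        exact hE.isUnit.ne_zero
      have dx : A.valuation (x - a) < 1 := by
        rw [(hx.sub ha).lt_iff, sub_self]
      have dy : A.valuation (y - b) < 1 := by
        rw [(hy.sub hb).lt_iff, sub_self]
      rcases sub_of_same_reduction H.vint h3 h1 ha.le dx dy hns with h5 | ⟨X, Y, HXY, h5, h6⟩
      · rw [h5, sub_self]; exact inKer_zero
      · rw [h5, inKer_some]; exact h6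

omit [hr : IsLocalHom r] [hE : W'.IsElliptic] in
/-- Chord-tangent addition of integral points which do not reduce to opposite points. -/
lemma PtRd.add_aux (H : CurveRd r W W') [IsLocalHom r] {x₁ y₁ x₂ y₂ : K} {x₁' y₁' x₂' y₂' : k}
    {h₁ : W.toAffine.Nonsingular x₁ y₁} {h₂ : W.toAffine.Nonsingular x₂ y₂}
    {h₁' : W'.toAffine.Nonsingular x₁' y₁'} {h₂' : W'.toAffine.Nonsingular x₂' y₂'}
    (rx₁ : Rd r x₁ x₁') (ry₁ : Rd r y₁ y₁') (rx₂ : Rd r x₂ x₂') (ry₂ : Rd r y₂ y₂')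
    (hne : ¬ (x₁' = x₂' ∧ y₁' = W'.toAffine.negY x₂' y₂')) :
    PtRd r ((.some x₁ y₁ h₁ : W.toAffine.Point) + .some x₂ y₂ h₂)
      ((.some x₁' y₁' h₁' : W'.toAffine.Point) + .some x₂' y₂' h₂') := by
  have hne1 : ¬ (x₁ = x₂ ∧ y₁ = W.toAffine.negY x₂ y₂) := by
    rintro ⟨rfl, rfl⟩
    exact hne ⟨rx₁.uniq rx₂, ry₁.uniq (H.negY rx₂ ry₂)⟩
  rw [Point.add_some hne1, Point.add_some hne]
  have hl := H.slope h₁.1 h₂.1 rx₁ rx₂ ry₁ ry₂ h₁'.1 h₂'.1 hne
  exact ptRd_some (H.addX rx₁ rx₂ hl) (H.addY rx₁ rx₂ ry₁ hl)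

theorem PtRd.add (H : CurveRd r W W') {P P' : W.toAffine.Point} {Q Q' : W'.toAffine.Point}
    (h : PtRd r P Q) (h' : PtRd r P' Q') : PtRd r (P + P') (Q + Q') := by
  -- adding a point of the kernel
  have aux : ∀ {P P' : W.toAffine.Point} {Q' : W'.toAffine.Point}, InKer A.valuation P →
      PtRd r P' Q' → PtRd r (P + P') Q' := by
    intro P P' Q' hP h'
    obtain ⟨S, hS⟩ := exists_ptRd H (P + P')
    have hSQ : S = Q' := by
      by_contra hne
      rcases h' with ⟨h1, rfl⟩ | ⟨x, y, h1, x', y', h2, rfl, rfl, hx, hy⟩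
      · exact hne (hS.inKer_iff.mp (inKer_add H.vint hP h1))
      · have hPeq : P = (P + .some x y h1) + (- .some x y h1) := by abel
        rcases hS with ⟨h3, -⟩ | ⟨a, b, h3, a', b', h4, heq, rfl, ha, hb⟩
        · -- then the second point is in the kernel
          have : InKer A.valuation (.some x y h1 : W.toAffine.Point) := by
            have := inKer_sub H.vint h3 hP
            rwa [add_sub_cancel_left] at this
          exact absurd (inKer_some.mp this) (not_lt.mpr hx.le)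
        · rw [heq, Point.neg_some] at hPeq
          have h5 := PtRd.add_aux H (h₁ := h3) (h₂ := (nonsingular_neg ..).mpr h1) (h₁' := h4)
            (h₂' := (nonsingular_neg ..).mpr h2) ha hb hx (H.negY hx hy) (by
              rintro ⟨rfl, h6⟩
              apply hne
              rw [negY_negY] at h6
              subst h6
              rfl)
          rw [← hPeq] at h5
          have h6 := h5.inKer_iff.mp hP
          rw [← Point.neg_some h2, ← sub_eq_add_neg, sub_eq_zero] at h6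
          exact hne h6
    rwa [← hSQ]
  rcases h with ⟨h1, rfl⟩ | ⟨x₁, y₁, h1, x₁', y₁', h2, rfl, rfl, hx₁, hy₁⟩
  · rw [zero_add]; exact aux h1 h'
  rcases h' with ⟨h3, rfl⟩ | ⟨x₂, y₂, h3, x₂', y₂', h4, rfl, rfl, hx₂, hy₂⟩
  · rw [add_zero, add_comm]; exact aux h3 (ptRd_some hx₁ hy₁)
  by_cases hne : x₁' = x₂' ∧ y₁' = W'.toAffine.negY x₂' y₂'
  · obtain ⟨rfl, rfl⟩ := hne
    rw [Point.add_of_Y_eq rfl rfl]
    have h5 : PtRd r (-(.some x₂ y₂ h3 : W.toAffine.Point)) (-(.some x₁' y₂' h4)) :=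
      PtRd.neg H (ptRd_some hx₂ hy₂)
    rw [Point.neg_some (W' := W'.toAffine)] at h5
    have h6 := sub_inKer_of_ptRd H (ptRd_some (h := h1) (h' := h2) hx₁ hy₁) h5
    rw [sub_neg_eq_add] at h6
    exact ptRd_of_inKer h6
  · exact PtRd.add_aux H hx₁ hy₁ hx₂ hy₂ hne

/-- The reduction homomorphism. -/
noncomputable def redHom (H : CurveRd r W W') : W.toAffine.Point →+ W'.toAffine.Point where
  toFun P := (exists_ptRd H P).choose
  map_zero' := (exists_ptRd H 0).choose_spec.uniq ptRd_zero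
  map_add' P Q := (exists_ptRd H (P + Q)).choose_spec.uniq
    ((exists_ptRd H P).choose_spec.add H (exists_ptRd H Q).choose_spec)

lemma redHom_spec (H : CurveRd r W W') (P : W.toAffine.Point) : PtRd r P (redHom H P) :=
  (exists_ptRd H P).choose_spec

lemma redHom_eq_iff (H : CurveRd r W W') {P : W.toAffine.Point} {Q : W'.toAffine.Point} :
    redHom H P = Q ↔ PtRd r P Q := by
  constructor
  · rintro rfl; exact redHom_spec H P
  · exact fun h => (redHom_spec H P).uniq h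

lemma redHom_eq_zero_iff (H : CurveRd r W W') {P : W.toAffine.Point} :
    redHom H P = 0 ↔ InKer A.valuation P := (redHom_spec H P).inKer_iff.symm

end add

end Fermat.Agent.EFrob
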