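import Fermat.Agent.EFrob.FunField
import Fermat.Agent.EFrob.PMap
import Fermat.Agent.EFrob.Height
import Fermat.Agent.EFrob.KerCount

set_option autoImplicit false

/-!
# Specialisation of points of `E(k(E))` at points of `E(k)`
-/

namespace Fermat.Agent.EFrob

open WeierstrassCurve WeierstrassCurve.Affine Polynomial
open Fermat.Agent.ECT
open Fermat.Agent.EC (xc xc_some InKer inKer_some inKer_zero VInt zw_of_one_lt InE)
open scoped Polynomial

section

variable {k K : Type*} [Field k] [Field K] [Algebra k K] {W : WeierstrassCurve k}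

/-- The residue map at a place trivial on `k`. -/
noncomputable abbrev rV (V : ValuationSubring K) : V →+* IsLocalRing.ResidueField V :=
  IsLocalRing.residue V

/-- The structural map `k → κ(V)`. -/
noncomputable def jV (V : ValuationSubring K) (hV : ∀ c : k, algebraMap k K c ∈ V) :
    k →+* IsLocalRing.ResidueField V :=
  (rV V).comp ((algebraMap k K).codRestrict V.toSubring hV)

lemma rd_const (V : ValuationSubring K) (hV : ∀ c : k, algebraMap k K c ∈ V) (c : k) :
    Rd (rV V) (algebraMap k K c) (jV V hV c) := ⟨⟨_, hV c⟩, rfl, rfl⟩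

lemma curveRd (V : ValuationSubring K) (hV : ∀ c : k, algebraMap k K c ∈ V) :
    CurveRd (rV V) (W.map (algebraMap k K)) (W.map (jV V hV)) where
  a₁ := rd_const V hV _
  a₂ := rd_const V hV _
  a₃ := rd_const V hV _
  a₄ := rd_const V hV _
  a₆ := rd_const V hV _

lemma rd_of_lt (V : ValuationSubring K) (hV : ∀ c : k, algebraMap k K c ∈ V) {z : K} {c : k}
    (h : V.valuation (z - algebraMap k K c) < 1) : Rd (rV V) z (jV V hV c) := by
  obtain ⟨w, hw⟩ := exists_rd (r := rV V) h.le
  have h0 : w = 0 := (hw.lt_iff).mp h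
  subst h0
  have := hw.add (rd_const V hV c)
  rwa [sub_add_cancel, zero_add] at this

lemma rd_aeval (V : ValuationSubring K) (hV : ∀ c : k, algebraMap k K c ∈ V) {x : K} {a : k}
    (hx : Rd (rV V) x (jV V hV a)) (f : k[X]) :
    Rd (rV V) (aeval x f) (jV V hV (f.eval a)) := by
  induction f using Polynomial.induction_on' with
  | add p q hp hq =>
    rw [map_add, eval_add, map_add]
    exact hp.add hq
  | monomial n c =>
    rw [← C_mul_X_pow_eq_monomial, map_mul, map_pow, aeval_X, aeval_C, eval_mul, eval_pow, eval_X,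
      eval_C, map_mul, map_pow]
    exact (rd_const V hV c).mul (hx.pow n)

variable [DecidableEq k] [DecidableEq K]

open Classical in
/-- `R ∈ E(k(E))` specialises to `α T` at every point `T` of `E(k)`. -/
def SpecRel (x y : K) (R : (W.map (algebraMap k K)).toAffine.Point)
    (α : W.toAffine.Point →+ W.toAffine.Point) : Prop :=
  ∀ (a b : k) (h : W.toAffine.Nonsingular a b) (V : ValuationSubring K)
    (hV : ∀ c : k, algebraMap k K c ∈ V), V.valuation (x - algebraMap k K a) < 1 →
    V.valuation (y - algebraMap k K b) < 1 →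
    PtRd (rV V) R (pmap (W' := W.map (jV V hV)) (jV V hV) rfl (α (.some a b h)))

variable {x y : K}

lemma specRel_generic (hn : (W.map (algebraMap k K)).toAffine.Nonsingular x y) :
    SpecRel x y (.some x y hn) (AddMonoidHom.id _) := by
  classical
  intro a b h V hV hx hy
  rw [AddMonoidHom.id_apply, pmap_some]
  exact ptRd_some (rd_of_lt V hV hx) (rd_of_lt V hV hy)

variable [hE : W.IsElliptic]

lemma SpecRel.add {R S : (W.map (algebraMap k K)).toAffine.Point}
    {α β : W.toAffine.Point →+ W.toAffine.Point} (h : SpecRel x y R α) (h' : SpecRel x y S β) :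
    SpecRel x y (R + S) (α + β) := by
  classical
  intro a b hn V hV hx hy
  rw [AddMonoidHom.add_apply, map_add]
  exact (h a b hn V hV hx hy).add (curveRd V hV) (h' a b hn V hV hx hy)

omit hE in
lemma SpecRel.neg {R : (W.map (algebraMap k K)).toAffine.Point}
    {α : W.toAffine.Point →+ W.toAffine.Point} (h : SpecRel x y R α) :
    SpecRel x y (-R) (-α) := by
  classical
  intro a b hn V hV hx hy
  rw [AddMonoidHom.neg_apply, map_neg]
  exact (h a b hn V hV hx hy).neg (curveRd V hV)

lemma SpecRel.sub {R S : (W.map (algebraMap k K)).toAffine.Point}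
    {α β : W.toAffine.Point →+ W.toAffine.Point} (h : SpecRel x y R α) (h' : SpecRel x y S β) :
    SpecRel x y (R - S) (α - β) := by
  rw [sub_eq_add_neg, sub_eq_add_neg]
  exact h.add h'.neg

omit hE in
lemma specRel_zero : SpecRel x y (0 : (W.map (algebraMap k K)).toAffine.Point) 0 := by
  classical
  intro a b hn V hV hx hy
  rw [AddMonoidHom.zero_apply, _root_.map_zero]
  exact ptRd_zero

lemma SpecRel.nsmul {R : (W.map (algebraMap k K)).toAffine.Point}
    {α : W.toAffine.Point →+ W.toAffine.Point} (h : SpecRel x y R α) (n : ℕ) :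
    SpecRel x y (n • R) (n • α) := by
  induction n with
  | zero => rw [zero_nsmul, zero_nsmul]; exact specRel_zero
  | succ n ih => rw [succ_nsmul, succ_nsmul]; exact ih.add h

lemma SpecRel.zsmul {R : (W.map (algebraMap k K)).toAffine.Point}
    {α : W.toAffine.Point →+ W.toAffine.Point} (h : SpecRel x y R α) (n : ℤ) :
    SpecRel x y (n • R) (n • α) := by
  obtain ⟨m, rfl | rfl⟩ := n.eq_nat_or_neg
  · rw [natCast_zsmul, natCast_zsmul]; exact h.nsmul m
  · rw [neg_smul, neg_smul, natCast_zsmul, natCast_zsmul]; exact (h.nsmul m).neg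

omit hE in
lemma SpecRel.frob {ℓ : ℕ} [Fact ℓ.Prime] [CharP k ℓ] [CharP K ℓ]
    (hk : W.map (frobenius k ℓ) = W)
    (hK : (W.map (algebraMap k K)).map (frobenius K ℓ) = W.map (algebraMap k K))
    {R : (W.map (algebraMap k K)).toAffine.Point}
    {α : W.toAffine.Point →+ W.toAffine.Point} (h : SpecRel x y R α) :
    SpecRel x y (frobP ℓ hK R) ((frobP ℓ hk).comp α) := by
  classical
  intro a b hn V hV hx hy
  have hchar : CharP (IsLocalRing.ResidueField V) ℓ :=
    charP_of_injective_ringHom (jV V hV).injective ℓ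
  have hκ : (W.map (jV V hV)).map (frobenius (IsLocalRing.ResidueField V) ℓ) = W.map (jV V hV) :=
    frob_map ℓ (jV V hV) hk
  have h1 := PtRd.frob ℓ hK hκ (h a b hn V hV hx hy)
  rw [frobP_comm ℓ (jV V hV) rfl hk hκ] at h1
  exact h1

/-- If `R` is generically `x(R) = f / g`, then `f / g` computes `x(α T)`. -/
lemma SpecRel.xmap [IsAlgClosed k] (hplace : ∀ a b : k, W.toAffine.Equation a b →
      ∃ V : ValuationSubring K, (∀ c : k, algebraMap k K c ∈ V) ∧
      V.valuation (x - algebraMap k K a) < 1 ∧ V.valuation (y - algebraMap k K b) < 1)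
    {R : (W.map (algebraMap k K)).toAffine.Point}
    {α : W.toAffine.Point →+ W.toAffine.Point} (h : SpecRel x y R α) {f g : k[X]}
    (hfg : Rep x R f g) : XMap α f g := by
  classical
  refine ⟨hfg.1, ?_⟩
  intro P hP
  rcases P with _ | ⟨a, b, hn⟩
  · exact absurd rfl hP
  obtain ⟨V, hV, hx, hy⟩ := hplace a b hn.1
  have h1 := h a b hn V hV hx hy
  rw [xc_some]
  have hxa := rd_of_lt V hV hx
  have hf := rd_aeval V hV hxa f
  have hg := rd_aeval V hV hxa g
  have hrel := hfg.2
  rcases h1 with ⟨hker, h0⟩ | ⟨X, Y, h2, X', Y', h3, rfl, h5, hX, hY⟩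
  · -- `α T = 0`
    have h0' : α (.some a b hn) = 0 := by
      apply pmap_injective (jV V hV) rfl
      rw [h0, map_zero]
    rw [h0', xN_zero, xD_zero, one_mul, zero_mul]
    apply (jV V hV).injective
    rw [map_zero, ← hg.lt_iff]
    rcases hker with rfl | hker
    · rw [xN_zero, xD_zero, one_mul, zero_mul] at hrel
      rw [hrel, map_zero]
      exact zero_lt_one
    · have hR0 : R ≠ 0 := by
        rintro rfl
        simp [xc] at hker
      rw [xN_of_ne hR0, xD_of_ne hR0, one_mul] at hrel
      by_contra hlt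
      rw [not_lt] at hlt
      have h6 : 1 < V.valuation (aeval x f) := by
        rw [← hrel, map_mul]
        exact one_lt_mul_of_lt_of_le' hker hlt
      exact absurd hf.le (not_le.mpr h6)
  · rw [xN_some, xD_some, one_mul] at hrel
    have h6 : Rd (rV V) (X * aeval x g) (X' * jV V hV (g.eval a)) := hX.mul hg
    rw [hrel] at h6
    have h7 := h6.uniq hf
    have h8 : xN (pmap (W' := W.map (jV V hV)) (jV V hV) rfl (α (.some a b hn))) = X' := by
      rw [h5, xN_some]
    have h9 : xD (pmap (W' := W.map (jV V hV)) (jV V hV) rfl (α (.some a b hn))) = 1 := by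
      rw [h5, xD_some]
    rw [xN_pmap] at h8
    rw [xD_pmap] at h9
    apply (jV V hV).injective
    rw [map_mul, map_mul, h8, h9, one_mul, h7]

end

end Fermat.Agent.EFrob
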