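import Fermat.Agent.EFrob.Main

set_option autoImplicit false

/-!
# Trace and determinant of Frobenius on the `p`-torsion (in characteristic `ℓ`)
-/

namespace Fermat.Agent.EFrob

open WeierstrassCurve WeierstrassCurve.Affine Polynomial
open FFData (aℓ)

section charp

variable {k : Type*} [Field k] [IsAlgClosed k] [DecidableEq k] {ℓ : ℕ} [hℓ : Fact ℓ.Prime]
  [CharP k ℓ] {W : WeierstrassCurve k} [hE : W.IsElliptic] (hk : W.map (frobenius k ℓ) = W)

omit [hℓ : Fact ℓ.Prime] [IsAlgClosed k] [DecidableEq k] hE in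
lemma charP_functionField (W : WeierstrassCurve k) : CharP W.toAffine.FunctionField ℓ :=
  charP_of_injective_algebraMap (algebraMap k W.toAffine.FunctionField).injective ℓ

/-- **Characteristic equation of Frobenius.** -/
theorem frob_eq (T : W.toAffine.Point) :
    frobP ℓ hk (frobP ℓ hk T) - aℓ hk • frobP ℓ hk T + (ℓ : ℤ) • T = 0 := by
  classical
  have := charP_functionField (ℓ := ℓ) W
  exact (ffData (W := W)).frob_relation hk (frob_map ℓ _ hk) T

theorem card_frob_add (n : ℕ) (hn : (n : k) ≠ 0) :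
    (Nat.card {T : W.toAffine.Point // frobP ℓ hk T + n • T = 0} : ℤ) =
      n ^ 2 + aℓ hk * n + ℓ := by
  classical
  have := charP_functionField (ℓ := ℓ) W
  exact (ffData (W := W)).card_ker_frob_add hk (frob_map ℓ _ hk) n hn

end charp

section linalg

variable {K V : Type*} [Field K] [AddCommGroup V] [Module K V]

/-- In dimension 2: `f² = tr f · f - det f`. -/
lemma cayley_two (hV : Module.finrank K V = 2) (f : V →ₗ[K] V) (v : V) :
    f (f v) - LinearMap.trace K V f • f v + LinearMap.det f • v = 0 := by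
  have hfin : Module.Finite K V := Module.finite_of_finrank_pos (by omega)
  let b : Module.Basis (Fin 2) K V := Module.finBasisOfFinrankEq K V hV
  have h1 : f.charpoly = X ^ 2 - C (LinearMap.trace K V f) * X + C (LinearMap.det f) := by
    rw [← LinearMap.charpoly_toMatrix f b, Matrix.charpoly_fin_two,
      LinearMap.trace_eq_matrix_trace K b f, ← LinearMap.det_toMatrix b]
  have h2 := f.aeval_self_charpoly
  rw [h1] at h2
  have h3 := LinearMap.congr_fun h2 v
  simp only [map_add, map_sub, aeval_X, map_mul, aeval_C, LinearMap.add_apply,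
    LinearMap.sub_apply, Module.End.mul_apply, Module.algebraMap_end_apply, LinearMap.zero_apply,
    pow_two] at h3
  exact h3

lemma trace_det_scalar (hV : Module.finrank K V = 2) (c : K) :
    LinearMap.trace K V (c • (1 : V →ₗ[K] V)) = 2 * c ∧
      LinearMap.det (c • (1 : V →ₗ[K] V)) = c ^ 2 := by
  have hfin : Module.Finite K V := Module.finite_of_finrank_pos (by omega)
  constructor
  · rw [map_smul, Module.End.one_eq_id, LinearMap.trace_id, hV, smul_eq_mul, mul_comm]
    norm_num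
  · rw [LinearMap.det_smul, hV, Module.End.one_eq_id, LinearMap.det_id, mul_one]

theorem trace_det_of_relation (hV : Module.finrank K V = 2) (f : V →ₗ[K] V) (a l : K)
    (hrel : ∀ v, f (f v) - a • f v + l • v = 0)
    (hscal : ∀ c : K, (∀ v, f v = c • v) → 2 * c = a ∧ c ^ 2 = l) :
    LinearMap.trace K V f = a ∧ LinearMap.det f = l := by
  by_cases h : ∃ v, LinearIndependent K ![v, f v]
  · obtain ⟨v, hv⟩ := h
    have h1 := cayley_two hV f v
    have h2 := hrel v
    have h3 : (LinearMap.det f - l) • v + (a - LinearMap.trace K V f) • f v = 0 := by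
      rw [← sub_eq_zero.mpr (h1.trans h2.symm)]
      module
    obtain ⟨h4, h5⟩ := LinearIndependent.pair_iff.mp hv _ _ h3
    exact ⟨(sub_eq_zero.mp h5).symm, sub_eq_zero.mp h4⟩
  · push Not at h
    obtain ⟨c, hc⟩ := LinearMap.exists_eq_smul_id_of_forall_notLinearIndependent h
    obtain ⟨h1, h2⟩ := hscal c (fun v => by rw [hc]; rfl)
    rw [hc, (trace_det_scalar hV c).1, (trace_det_scalar hV c).2]
    exact ⟨h1, h2⟩

end linalg

section torsion

variable {k : Type*} [Field k] [IsAlgClosed k] [DecidableEq k] {ℓ : ℕ} [hℓ : Fact ℓ.Prime]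
  [CharP k ℓ] {W : WeierstrassCurve k} [hE : W.IsElliptic] (hk : W.map (frobenius k ℓ) = W)
  {p : ℕ} [hp : Fact p.Prime] {V : Type*} [AddCommGroup V] [Module (ZMod p) V]

lemma dvd_card_of_scalar (hV : Module.finrank (ZMod p) V = 2)
    (ι : V →+ W.toAffine.Point) (hι : Function.Injective ι) (f : V →ₗ[ZMod p] V)
    (hf : ∀ v, ι (f v) = frobP ℓ hk (ι v)) {n : ℕ} (hn : (n : k) ≠ 0)
    (hc : ∀ v, f v = (-(n : ZMod p)) • v) :
    ((p : ℤ) ^ 2) ∣ (n : ℤ) ^ 2 + aℓ hk * n + ℓ := by
  rw [← card_frob_add hk n hn]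
  have hfin : Module.Finite (ZMod p) V := Module.finite_of_finrank_pos (by omega)
  let H : AddSubgroup W.toAffine.Point := ι.range
  let L : AddSubgroup W.toAffine.Point := (frobP ℓ hk + n • AddMonoidHom.id _).ker
  have hHL : H ≤ L := by
    rintro _ ⟨v, rfl⟩
    rw [AddMonoidHom.mem_ker]
    change frobP ℓ hk (ι v) + n • ι v = 0
    rw [← hf, hc, ← map_nsmul, ← map_add]
    have : (-(n : ZMod p)) • v + n • v = 0 := by
      rw [neg_smul, Nat.cast_smul_eq_nsmul, neg_add_cancel]
    rw [this, map_zero]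
  have h1 : Nat.card H = p ^ 2 := by
    have e : V ≃ H := Equiv.ofInjective ι hι
    rw [← Nat.card_congr e, Module.natCard_eq_pow_finrank (K := ZMod p), Nat.card_zmod, hV]
  have h2 : Nat.card L = Nat.card {T : W.toAffine.Point // frobP ℓ hk T + n • T = 0} := rfl
  have h3 := AddSubgroup.card_dvd_of_le hHL
  rw [h1, h2] at h3
  exact_mod_cast h3

/-- **Trace and determinant of Frobenius** on a two-dimensional space of `p`-torsion points. -/
theorem trace_det (hpl : p ≠ ℓ) (hV : Module.finrank (ZMod p) V = 2)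
    (ι : V →+ W.toAffine.Point) (hι : Function.Injective ι) (f : V →ₗ[ZMod p] V)
    (hf : ∀ v, ι (f v) = frobP ℓ hk (ι v)) :
    LinearMap.trace (ZMod p) V f = aℓ hk ∧ LinearMap.det f = (ℓ : ZMod p) := by
  refine trace_det_of_relation hV f _ _ ?_ ?_
  · intro v
    apply hι
    have h1 := frob_eq hk (ι v)
    rw [← hf, ← hf, ← map_zsmul ι, ← map_zsmul ι, ← map_sub ι, ← map_add ι] at h1
    rw [map_zero, ← h1]
    congr 1
    rw [Int.cast_smul_eq_zsmul, ← Int.cast_natCast (R := ZMod p), Int.cast_smul_eq_zsmul]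
  · intro c hc
    -- choose a lift `n` of `-c` with `n ≡ 1 mod ℓ`
    have hcop : Nat.Coprime p ℓ := (Nat.coprime_primes hp.out hℓ.out).mpr hpl
    obtain ⟨n, hn1, hn2⟩ := Nat.chineseRemainder hcop (-c).val 1
    have hnc : (n : ZMod p) = -c := by
      rw [(ZMod.natCast_eq_natCast_iff _ _ _).mpr hn1, ZMod.natCast_val, ZMod.cast_id]
    have hnl : (n : k) = 1 := by
      have := (CharP.natCast_eq_natCast k ℓ (a := n) (b := 1)).mpr hn2
      rw [this, Nat.cast_one]
    have hnl' : ((n + ℓ * p : ℕ) : k) = 1 := by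
      rw [Nat.cast_add, hnl, Nat.cast_mul, CharP.cast_eq_zero, zero_mul, add_zero]
    have hc1 : ∀ v, f v = (-(n : ZMod p)) • v := fun v => by rw [hnc, neg_neg, hc]
    have hc2 : ∀ v, f v = (-((n + ℓ * p : ℕ) : ZMod p)) • v := fun v => by
      rw [Nat.cast_add, Nat.cast_mul, ZMod.natCast_self, mul_zero, add_zero, hc1]
    have d1 := dvd_card_of_scalar hk hV ι hι f hf (by rw [hnl]; exact one_ne_zero) hc1
    have d2 := dvd_card_of_scalar hk hV ι hι f hf (by rw [hnl']; exact one_ne_zero) hc2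
    have hpZ : Prime (p : ℤ) := Nat.prime_iff_prime_int.mp hp.out
    have d3 : (p : ℤ) ∣ 2 * n + aℓ hk := by
      have h1 : (p : ℤ) ^ 2 ∣ ((n + ℓ * p : ℕ) : ℤ) ^ 2 + aℓ hk * ((n + ℓ * p : ℕ) : ℤ) + ℓ -
          ((n : ℤ) ^ 2 + aℓ hk * n + ℓ) - ℓ ^ 2 * p ^ 2 :=
        dvd_sub (dvd_sub d2 d1) (Dvd.intro_left _ rfl)
      have h2 : ((n + ℓ * p : ℕ) : ℤ) ^ 2 + aℓ hk * ((n + ℓ * p : ℕ) : ℤ) + ℓ -
          ((n : ℤ) ^ 2 + aℓ hk * n + ℓ) - ℓ ^ 2 * p ^ 2 = p * (ℓ * (2 * n + aℓ hk)) := by
        push_cast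
        ring
      rw [h2, pow_two] at h1
      have h3 := (mul_dvd_mul_iff_left hpZ.ne_zero).mp h1
      rcases hpZ.dvd_or_dvd h3 with h4 | h4
      · exfalso
        have h5 : p ∣ ℓ := by exact_mod_cast h4
        exact hpl ((Nat.prime_dvd_prime_iff_eq hp.out hℓ.out).mp h5)
      · exact h4
    have e1 : (2 * n + aℓ hk : ZMod p) = 0 := by
      have := (ZMod.intCast_zmod_eq_zero_iff_dvd _ p).mpr d3
      push_cast at this
      exact this
    have e2 : ((n : ZMod p) ^ 2 + aℓ hk * n + ℓ) = 0 := by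
      have := (ZMod.intCast_zmod_eq_zero_iff_dvd _ p).mpr ((Dvd.intro_left _ (pow_two (p : ℤ)).symm).trans d1)
      push_cast at this
      exact this
    rw [hnc] at e1 e2
    have e3 : (aℓ hk : ZMod p) = 2 * c := by linear_combination e1
    refine ⟨e3.symm, ?_⟩
    rw [e3] at e2
    linear_combination -e2

end torsion

end Fermat.Agent.EFrob
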